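import Fermat.Agent.AbVar.Scheme.Generic

/-!
# Values of rational functions at points over fields
-/

set_option autoImplicit false

noncomputable section

universe u

open CategoryTheory CategoryTheory.Limits AlgebraicGeometry NeronModelInfra GoodReductionJacobian
open IsLocalRing
open scoped Classical

namespace Fermat.Agent.AbVar

namespace AbData

variable {K : Type u} [Field K] [IsAlgClosed K] (X : AbData K)
variable {F F' : Type u} [Field F] [Algebra K F] [Field F'] [Algebra K F']

/-- The value of a function at a point over a field, `0` where it is not regular. -/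
def val (x : X.Pt F) (h : X.Fun) : F :=
  if hh : h ∈ X.loc (X.img x) then X.ev x ⟨h, hh⟩ else 0

theorem val_eq {x : X.Pt F} {h : X.Fun} (hh : h ∈ X.loc (X.img x)) :
    X.val x h = X.ev x ⟨h, hh⟩ := dif_pos hh

theorem val_mul {x : X.Pt F} {h h' : X.Fun} (hh : h ∈ X.loc (X.img x))
    (hh' : h' ∈ X.loc (X.img x)) : X.val x (h * h') = X.val x h * X.val x h' := by
  rw [X.val_eq hh, X.val_eq hh', X.val_eq (mul_mem hh hh'), ← map_mul]
  rfl

theorem val_add {x : X.Pt F} {h h' : X.Fun} (hh : h ∈ X.loc (X.img x))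
    (hh' : h' ∈ X.loc (X.img x)) : X.val x (h + h') = X.val x h + X.val x h' := by
  rw [X.val_eq hh, X.val_eq hh', X.val_eq (add_mem hh hh'), ← map_add]
  rfl

theorem val_algebraMap (x : X.Pt F) (a : K) :
    X.val x (algebraMap K X.Fun a) = algebraMap K F a := by
  rw [X.val_eq (Subalgebra.algebraMap_mem _ a)]
  exact (X.ev x).commutes a

@[simp] theorem val_one (x : X.Pt F) : X.val x 1 = 1 := by
  rw [← map_one (algebraMap K X.Fun), val_algebraMap, map_one]

theorem val_ne_zero {x : X.Pt F} {h : X.Fun} (h0 : h ≠ 0) (hh : h ∈ X.loc (X.img x))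
    (hh' : h⁻¹ ∈ X.loc (X.img x)) : X.val x h ≠ 0 := by
  intro e
  have h1 := X.val_mul hh hh'
  rw [mul_inv_cancel₀ h0, e, zero_mul, val_one] at h1
  exact one_ne_zero h1

omit [IsAlgClosed K] in
/-- An algebra map out of a field is local. -/
theorem isLocalHom_of_field {R S : Type u} [Field R] [CommRing S] [Nontrivial S] [Algebra K R]
    [Algebra K S] (φ : R →ₐ[K] S) : IsLocalHom φ.toRingHom :=
  ⟨fun a ha => isUnit_iff_ne_zero.mpr fun h => by
    rw [h, map_zero] at ha
    exact not_isUnit_zero ha⟩

omit [IsAlgClosed K] in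
theorem img_map_field (φ : F →ₐ[K] F') (x : X.Pt F) : X.img (X.map φ x) = X.img x :=
  have := isLocalHom_of_field φ
  X.img_map_of_isLocalHom φ x

theorem val_map (φ : F →ₐ[K] F') (x : X.Pt F) (h : X.Fun) :
    X.val (X.map φ x) h = φ (X.val x h) := by
  unfold val
  by_cases hh : h ∈ X.loc (X.img x)
  · have hh' : h ∈ X.loc (X.img (X.map φ x)) := by rwa [X.img_map_field]
    rw [dif_pos hh, dif_pos hh', X.ev_map φ x hh hh']
  · have hh' : h ∉ X.loc (X.img (X.map φ x)) := by rwa [X.img_map_field]
    rw [dif_neg hh, dif_neg hh', map_zero]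

theorem val_genPt (h : X.Fun) : X.val X.genPt h = h := by
  have hh : h ∈ X.loc (X.img X.genPt) := by rw [X.img_genPt, X.loc_genericPoint]; trivial
  rw [X.val_eq hh, X.ev_genPt]

theorem mem_loc_of_img_eq_genericPoint {x : X.Pt F} (hx : X.img x = genericPoint X.A) (h : X.Fun) :
    h ∈ X.loc (X.img x) := by
  rw [hx, X.loc_genericPoint]; trivial

theorem val_ne_zero_of_generic {x : X.Pt F} (hx : X.img x = genericPoint X.A) {h : X.Fun}
    (h0 : h ≠ 0) : X.val x h ≠ 0 :=
  X.val_ne_zero h0 (X.mem_loc_of_img_eq_genericPoint hx h) (X.mem_loc_of_img_eq_genericPoint hx _)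

/-- The embedding of the function field at a dominant point. -/
def genEval {x : X.Pt F} (hx : X.img x = genericPoint X.A) : X.Fun →ₐ[K] F where
  toFun := X.val x
  map_one' := X.val_one x
  map_mul' a b := X.val_mul (X.mem_loc_of_img_eq_genericPoint hx a) (X.mem_loc_of_img_eq_genericPoint hx b)
  map_zero' := by rw [← map_zero (algebraMap K X.Fun), val_algebraMap, map_zero]
  map_add' a b := X.val_add (X.mem_loc_of_img_eq_genericPoint hx a) (X.mem_loc_of_img_eq_genericPoint hx b)
  commutes' a := X.val_algebraMap x a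

theorem map_genEval {x : X.Pt F} (hx : X.img x = genericPoint X.A) :
    X.map (X.genEval hx) X.genPt = x := by
  refine X.pt_ext (by rw [X.img_map_field, X.img_genPt, hx]) fun h h1 h2 => ?_
  rw [← X.val_eq h1, ← X.val_eq h2, X.val_map, X.val_genPt]
  rfl

end AbData

end Fermat.Agent.AbVar
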