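import Fermat.Agent.AbVar.Height.Place
import Fermat.Agent.AbVar.Height.Val
import Fermat.Agent.AbVar.Scheme.CartierData
import Fermat.Agent.FF.Along

/-!
# The height of a point with respect to Cartier data
-/

set_option autoImplicit false

noncomputable section

universe u

open CategoryTheory CategoryTheory.Limits AlgebraicGeometry NeronModelInfra GoodReductionJacobian
open AlgebraicCurve IsLocalRing
open scoped Classical

namespace Fermat.Agent.AbVar

section Ord

variable {K k F : Type u} [Field K] [Field k] [IsAlgClosed k] [Algebra K k] [Field F] [Algebra k F]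
  [Algebra K F] [IsScalarTower K k F] [FF.IsFunctionField k F]

theorem ord_eq_zero_of_valHom_ne_zero (P : Place k F) (f : placeAlg K P)
    (h : valHom K P f ≠ 0) : P.ord (f : F) = 0 := by
  have h1 : IsUnit (⟨f, f.2⟩ : P.toValuationSubring) := by
    by_contra hu
    exact h ((valHom_eq_zero_iff P f).mpr (ValuationSubring.coe_mem_nonunits_iff.mpr hu))
  exact P.ord_coe_unit h1.unit

end Ord

namespace AbData

variable {K : Type u} [Field K] [IsAlgClosed K] (X : AbData K)

namespace CartierData

variable {X} (D : X.CartierData)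

theorem div_mem_of_specializes {z w : X.A} (h : z ⤳ w) :
    D.gen w / D.gen z ∈ X.loc z ∧ D.gen z / D.gen w ∈ X.loc z := by
  obtain ⟨U, hw, hU⟩ := D.coherent w
  exact hU z (h.mem_open U.2 hw)

variable {F : Type u} [Field F] [Algebra K F]

/-- The local equation at `z`, relative to the reference at the image of `x`, evaluated at `x`. -/
def locVal (x : X.Pt F) (z : X.A) : F := X.val x (D.gen z / D.gen (X.img x))

theorem locVal_ne_zero {x : X.Pt F} {z : X.A} (h : X.img x ⤳ z) : D.locVal x z ≠ 0 := by
  refine X.val_ne_zero (div_ne_zero (D.gen_ne_zero _) (D.gen_ne_zero _))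
    (D.div_mem_of_specializes h).1 ?_
  rw [inv_div]
  exact (D.div_mem_of_specializes h).2

theorem locVal_eq_mul {x : X.Pt F} {z w : X.A} (_hz : X.img x ⤳ z) (hw : X.img x ⤳ w)
    (h : D.gen z / D.gen w ∈ X.loc (X.img x)) :
    D.locVal x z = X.val x (D.gen z / D.gen w) * D.locVal x w := by
  unfold locVal
  rw [← X.val_mul h (D.div_mem_of_specializes hw).1,
    div_mul_div_cancel₀ (D.gen_ne_zero _)]

variable {k : Type u} [Field k] [IsAlgClosed k] [Algebra K k] [Algebra k F]
  [IsScalarTower K k F] [FF.IsFunctionField k F]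

variable (k) in
theorem finite_support_locVal (x : X.Pt F) :
    {P : Place k F | P.ord (D.locVal x (X.img (redPt X P x))) ≠ 0}.Finite := by
  obtain ⟨W, hzW, hW⟩ := D.coherent (X.img x)
  obtain ⟨U, S, hzU, hUW, hSU, hU⟩ := X.exists_nbhd hzW
  refine ((S.finite_toSet.biUnion fun h _ => FF.finite_support (K := k) (X.val x h))).subset
    fun P hP => ?_
  simp only [Set.mem_iUnion]
  by_contra hcon
  push Not at hcon
  have hmem : X.img (redPt X P x) ∈ U := by
    have h1 := hU (placeAlg K P) F x hzU fun h hh hh' => by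
      have h2 : P.ord (X.val x h) = 0 := by
        by_contra hne
        exact hcon h hh hne
      rw [← X.val_eq hh']
      have h3 : X.val x h ∈ placeAlg K P := (FF.mem_iff P).mpr (Or.inr h2.ge)
      exact ⟨⟨_, h3⟩, rfl⟩
    have h4 : X.img (redPt X P x) = X.img (X.extend (placeAlg K P) x) := by
      rw [redPt, X.red_apply, X.img_map_of_isLocalHom]
    rwa [h4]
  apply hP
  obtain ⟨h1, h2⟩ := hW _ (hUW hmem)
  have hs := img_specializes_redPt P X x
  obtain ⟨hm, hv⟩ := ev_redPt P X x h2 (X.loc_le_of_specializes hs h2)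
  unfold locVal
  rw [X.val_eq (X.loc_le_of_specializes hs h2)]
  refine ord_eq_zero_of_valHom_ne_zero P ⟨_, hm⟩ ?_
  rw [hv, ← X.val_eq]
  refine X.val_ne_zero (div_ne_zero (D.gen_ne_zero _) (D.gen_ne_zero _)) h2 ?_
  rwa [inv_div]

variable (k) in
/-- The pullback of the Cartier data by a point, up to linear equivalence. -/
def pull (x : X.Pt F) : Divisor k F :=
  Finsupp.onFinset (D.finite_support_locVal k x).toFinset
    (fun P => P.ord (D.locVal x (X.img (redPt X P x))))
    fun _ hP => (D.finite_support_locVal k x).mem_toFinset.mpr hP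

theorem pull_apply (x : X.Pt F) (P : Place k F) :
    D.pull k x P = P.ord (D.locVal x (X.img (redPt X P x))) := rfl

variable (k) in
/-- The height of a point. -/
def ht (x : X.Pt F) : ℤ := Divisor.degree (D.pull k x)

/-- Any neighbour of the image of the reduction gives the same multiplicity. -/
theorem pull_apply_of_coherent (x : X.Pt F) (P : Place k F) (z : X.A) (hz : X.img x ⤳ z)
    (h1 : D.gen z / D.gen (X.img (redPt X P x)) ∈ X.loc (X.img (redPt X P x)))
    (h2 : D.gen (X.img (redPt X P x)) / D.gen z ∈ X.loc (X.img (redPt X P x))) :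
    D.pull k x P = P.ord (D.locVal x z) := by
  have hs := img_specializes_redPt P X x
  set w := X.img (redPt X P x) with hw
  rw [pull_apply, ← hw, D.locVal_eq_mul hz hs (X.loc_le_of_specializes hs h1)]
  obtain ⟨hm, hv⟩ := ev_redPt P X x h1 (X.loc_le_of_specializes hs h1)
  have h0 : P.ord (X.val x (D.gen z / D.gen w)) = 0 := by
    rw [X.val_eq (X.loc_le_of_specializes hs h1)]
    refine ord_eq_zero_of_valHom_ne_zero P ⟨_, hm⟩ ?_
    rw [hv, ← X.val_eq]
    refine X.val_ne_zero (div_ne_zero (D.gen_ne_zero _) (D.gen_ne_zero _)) h1 ?_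
    rwa [inv_div]
  rw [P.ord_mul ?_ (D.locVal_ne_zero hs), h0, zero_add]
  refine X.val_ne_zero (div_ne_zero (D.gen_ne_zero _) (D.gen_ne_zero _))
    (X.loc_le_of_specializes hs h1) ?_
  rw [inv_div]
  exact X.loc_le_of_specializes hs h2

/-- A constant point has height zero. -/
theorem pull_map_algebraMap (a : X.Pt k) :
    D.pull k (X.map (IsScalarTower.toAlgHom K k F) a) = 0 := by
  ext P
  rw [pull_apply, redPt_map_algebraMap, locVal, X.img_map_field, X.val_map,
    div_self (D.gen_ne_zero _), val_one, map_one, Finsupp.zero_apply, Place.ord_one]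

theorem ht_map_algebraMap (a : X.Pt k) : D.ht k (X.map (IsScalarTower.toAlgHom K k F) a) = 0 := by
  rw [ht, pull_map_algebraMap, map_zero]

variable (k) in
/-- The pullback at a dominant point, as an effective divisor. -/
def effPull {x : X.Pt F} (_ : X.img x = genericPoint X.A) : Divisor k F :=
  D.pull k x + FF.div k (X.val x (D.gen (X.img x)))

theorem effPull_apply {x : X.Pt F} (hx : X.img x = genericPoint X.A) (P : Place k F) :
    D.effPull k hx P = P.ord (X.val x (D.gen (X.img (redPt X P x)))) := by
  rw [effPull, Finsupp.add_apply, pull_apply, FF.div_apply, locVal,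
    ← P.ord_mul (X.val_ne_zero_of_generic hx (div_ne_zero (D.gen_ne_zero _) (D.gen_ne_zero _)))
      (X.val_ne_zero_of_generic hx (D.gen_ne_zero _)),
    ← X.val_mul (X.mem_loc_of_img_eq_genericPoint hx _) (X.mem_loc_of_img_eq_genericPoint hx _),
    div_mul_cancel₀ _ (D.gen_ne_zero _)]

theorem degree_effPull {x : X.Pt F} (hx : X.img x = genericPoint X.A) :
    Divisor.degree (D.effPull k hx) = D.ht k x := by
  rw [effPull, map_add, FF.degree_div, add_zero, ht]

theorem effPull_nonneg {x : X.Pt F} (hx : X.img x = genericPoint X.A) : 0 ≤ D.effPull k hx := by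
  refine Finsupp.le_def.mpr fun P => ?_
  rw [Finsupp.zero_apply, effPull_apply]
  have hm := D.gen_mem (X.img (redPt X P x))
  have hm' := X.loc_le_of_specializes (img_specializes_redPt P X x) hm
  obtain ⟨h, -⟩ := ev_redPt P X x hm hm'
  rw [X.val_eq hm']
  exact FF.ord_nonneg P h

variable {F' : Type u} [Field F'] [Algebra k F'] [Algebra K F'] [IsScalarTower K k F']
  [Algebra F F'] [IsScalarTower k F F'] [IsScalarTower K F F'] [FiniteDimensional F F']
  [FF.IsFunctionField k F']

omit [IsAlgClosed K] in
theorem redPt_map (w : Place k F') (x : X.Pt F) :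
    redPt X w (X.map (IsScalarTower.toAlgHom K F F') x) = redPt X (w.restrict F) x := by
  let j : placeAlg K (w.restrict F) →ₐ[K] placeAlg K w :=
    ((IsScalarTower.toAlgHom K F F').comp (placeAlg K (w.restrict F)).val).codRestrict _
      fun f => f.2
  obtain ⟨y, rfl⟩ := (X.bijective_map_toFractionRing (placeAlg K (w.restrict F)) F).2 x
  rw [redPt, redPt, X.map_map, X.red_apply (r := valHom K (w.restrict F)), X.extend_map]
  have h := X.red_map (Ω := F') (valHom K w) j y
  refine Eq.trans ?_ (h.trans (X.map_congr (fun f => ?_) y))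
  · rfl
  · show valHom K w (j f) = _
    rw [valHom_eq_iff]
    have hval := (valHom_eq_iff (w.restrict F) f (valHom K _ f)).mp rfl
    rw [IsScalarTower.algebraMap_apply k F F']
    show algebraMap F F' (f : F) - _ ∈ _
    rw [← map_sub]
    rw [← inv_inv ((f : F) - _), ValuationSubring.inv_mem_nonunits_iff] at hval
    rw [← inv_inv (algebraMap F F' _), ValuationSubring.inv_mem_nonunits_iff, ← map_inv₀]
    exact hval.imp (fun h => by rw [h, map_zero]) fun h h' => h h'

theorem pull_map (x : X.Pt F) :
    D.pull k (X.map (IsScalarTower.toAlgHom K F F') x) = Divisor.pullback F' (D.pull k x) := by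
  ext w
  rw [Divisor.pullback_apply, pull_apply, pull_apply, redPt_map, ← Place.ord_restrict, locVal,
    locVal, X.img_map_field, X.val_map]
  rfl

theorem ht_map (x : X.Pt F) :
    D.ht k (X.map (IsScalarTower.toAlgHom K F F') x) = Module.finrank F F' * D.ht k x := by
  rw [ht, pull_map, Divisor.degree_pullback, ht]

end CartierData

end AbData

end Fermat.Agent.AbVar
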