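import Fermat.Agent.AbVar.Scheme.Generic
import Fermat.Agent.FF.RiemannRoch

/-!
# Reduction of points at the places of a function field
-/

set_option autoImplicit false

noncomputable section

universe u

open AlgebraicCurve IsLocalRing AlgebraicGeometry

namespace Fermat.Agent.AbVar

section ValAlg

variable {K : Type u} [Field K] {Ω : Type u} [Field Ω] [Algebra K Ω]

/-- A valuation subring containing the base field, as a subalgebra. -/
def valAlg (V : ValuationSubring Ω) (hV : ∀ a, algebraMap K Ω a ∈ V) : Subalgebra K Ω :=
  { V.toSubring.toSubsemiring with algebraMap_mem' := hV }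

variable {V : ValuationSubring Ω} {hV : ∀ a, algebraMap K Ω a ∈ V}

theorem mem_valAlg {x : Ω} : x ∈ valAlg V hV ↔ x ∈ V := Iff.rfl

instance (priority := high) valAlgDomain : IsDomain (valAlg V hV) := inferInstanceAs (IsDomain V)

instance (priority := high) : ValuationRing (valAlg V hV) := inferInstanceAs (ValuationRing V)

instance (priority := high) : IsFractionRing (valAlg V hV) Ω := inferInstanceAs (IsFractionRing V Ω)

instance : IsLocalRing (valAlg V hV) := inferInstanceAs (IsLocalRing V)

end ValAlg

section PlaceAlg

variable {K k F : Type u} [Field K] [Field k] [Algebra K k] [Field F] [Algebra k F] [Algebra K F]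
  [IsScalarTower K k F] (P : Place k F)

theorem algebraMap_mem_place (a : K) : algebraMap K F a ∈ P.toValuationSubring := by
  rw [IsScalarTower.algebraMap_apply K k F]
  exact P.algebraMap_mem' _

/-- The ring of a place as an algebra over the small field. -/
abbrev placeAlg (K : Type u) [Field K] [Algebra K k] [Algebra K F] [IsScalarTower K k F]
    (P : Place k F) : Subalgebra K F :=
  valAlg P.toValuationSubring (algebraMap_mem_place P)

variable [IsAlgClosed k] [FF.IsFunctionField k F]

theorem bijective_algebraMap_residue :
    Function.Bijective (algebraMap k P.ResidueField) := by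
  have := FF.finite_residueField P
  exact IsAlgClosed.algebraMap_bijective_of_isIntegral (k := k) (K := P.ResidueField)

/-- The value at a rational place. -/
def valHom (K : Type u) [Field K] [Algebra K k] [Algebra K F] [IsScalarTower K k F]
    (P : Place k F) : placeAlg K P →ₐ[K] k where
  __ := ((RingEquiv.ofBijective _ (bijective_algebraMap_residue P)).symm.toRingHom.comp
    (IsLocalRing.residue P.toValuationSubring)).comp
      (RingHom.id P.toValuationSubring : placeAlg K P →+* P.toValuationSubring)
  commutes' a := by
    show (RingEquiv.ofBijective _ (bijective_algebraMap_residue P)).symm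
      (IsLocalRing.residue _ ⟨algebraMap K F a, _⟩) = algebraMap K k a
    rw [RingEquiv.symm_apply_eq]
    show _ = algebraMap k P.ResidueField (algebraMap K k a)
    rw [IsScalarTower.algebraMap_apply k P.toValuationSubring P.ResidueField]
    show _ = IsLocalRing.residue _ _
    congr 1
    exact Subtype.ext (IsScalarTower.algebraMap_apply K k F a)

theorem valHom_eq_iff (f : placeAlg K P) (c : k) :
    valHom K P f = c ↔ (f : F) - algebraMap k F c ∈ P.toValuationSubring.nonunits := by
  show (RingEquiv.ofBijective _ (bijective_algebraMap_residue P)).symm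
      (IsLocalRing.residue _ ⟨f, f.2⟩) = c ↔ _
  rw [RingEquiv.symm_apply_eq]
  show IsLocalRing.residue _ _ = algebraMap k P.ResidueField c ↔ _
  rw [IsScalarTower.algebraMap_apply k P.toValuationSubring P.ResidueField]
  show IsLocalRing.residue _ _ = IsLocalRing.residue _ _ ↔ _
  rw [← sub_eq_zero, ← map_sub, IsLocalRing.residue_eq_zero_iff]
  exact ValuationSubring.coe_mem_nonunits_iff.symm

theorem valHom_algebraMap (c : k) (h : algebraMap k F c ∈ placeAlg K P) :
    valHom K P ⟨_, h⟩ = c := by
  rw [valHom_eq_iff, sub_self]
  exact P.toValuationSubring.nonunits.zero_mem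

theorem valHom_eq_zero_iff (f : placeAlg K P) :
    valHom K P f = 0 ↔ (f : F) ∈ P.toValuationSubring.nonunits := by
  rw [valHom_eq_iff, map_zero, sub_zero]

theorem surjective_valHom : Function.Surjective (valHom K P) := fun c =>
  ⟨⟨_, P.algebraMap_mem' c⟩, valHom_algebraMap P c _⟩

instance : IsLocalHom (valHom K P).toRingHom :=
  IsLocalHom.of_surjective _ (surjective_valHom P)

variable (X : AbData K)

/-- The reduction of a point at a place. -/
def redPt (P : Place k F) : X.Pt F →+ X.Pt k := X.red (valHom K P)

theorem redPt_map_algebraMap (a : X.Pt k) :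
    redPt X P (X.map (IsScalarTower.toAlgHom K k F) a) = a := by
  let j : k →ₐ[K] placeAlg K P :=
    (IsScalarTower.toAlgHom K k F).codRestrict _ fun c => P.algebraMap_mem' c
  have h := X.red_map (Ω := F) (valHom K P) j a
  refine Eq.trans ?_ (h.trans ((X.map_congr (ψ := AlgHom.id K k) (fun c => ?_) a).trans (X.map_id a)))
  · rfl
  · exact valHom_algebraMap P c _

variable [IsIntegral X.A]

omit [AlgebraicGeometry.IsIntegral X.A] in
theorem img_specializes_redPt (x : X.Pt F) : X.img x ⤳ X.img (redPt X P x) :=
  X.img_specializes_red _ _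

theorem ev_redPt (x : X.Pt F) {h : X.Fun} (hh : h ∈ X.loc (X.img (redPt X P x)))
    (hh' : h ∈ X.loc (X.img x)) :
    ∃ hm : X.ev x ⟨h, hh'⟩ ∈ placeAlg K P,
      valHom K P ⟨_, hm⟩ = X.ev (redPt X P x) ⟨h, hh⟩ := by
  obtain ⟨c, hc, hc'⟩ := X.ev_red (valHom K P) x hh hh'
  have hm : X.ev x ⟨h, hh'⟩ ∈ placeAlg K P := hc ▸ c.2
  refine ⟨hm, ?_⟩
  rw [show (⟨_, hm⟩ : placeAlg K P) = c from Subtype.ext hc]
  exact hc'

end PlaceAlg

end Fermat.Agent.AbVar
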