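import Fermat.Agent.AbVar.Height.Basic
import Fermat.Agent.AbVar.Curve.Places

/-!
# Points and heights over constant field extensions
-/

set_option autoImplicit false

noncomputable section

universe u

open CategoryTheory CategoryTheory.Limits AlgebraicGeometry NeronModelInfra GoodReductionJacobian
open AlgebraicCurve IsLocalRing
open scoped Classical

namespace Fermat.Agent.AbVar

section Tower

variable {K k F Ω : Type u} [Field K] [Field k] [IsAlgClosed k] [Field F] [Field Ω] [Algebra K k]
  [Algebra k F] [Algebra k Ω] [Algebra K Ω] [IsScalarTower K k Ω]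

instance towerConstBase : IsScalarTower K k (ConstExt k F Ω) :=
  IsScalarTower.of_algebraMap_eq fun c => by
    show constHom k F Ω (algebraMap K Ω c) = constHom k F Ω (algebraMap k Ω (algebraMap K k c))
    rw [← IsScalarTower.algebraMap_apply]

variable [Algebra K F] [IsScalarTower K k F]

variable (K k F Ω) in
/-- The inclusion of `F`, over the small field. -/
def inclK : F →ₐ[K] ConstExt k F Ω := (incl k F Ω).restrictScalars K

variable (k F) in
/-- The constants, over the small field. -/
def constK : Ω →ₐ[K] ConstExt k F Ω := IsScalarTower.toAlgHom K Ω _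

variable [FF.IsFunctionField k F] [IsAlgClosed Ω]

omit [Algebra K k] [IsScalarTower K k Ω] [Algebra K F] [IsScalarTower K k F] in
theorem valHom_eq_valAt (P : Place Ω (ConstExt k F Ω)) (e : placeAlg K P) :
    valHom K P e = valAt P (e : ConstExt k F Ω) := by
  rw [valHom_eq_iff]
  have h := sub_valAt_mem P (e := (e : ConstExt k F Ω)) e.2
  have h2 := (FF.residue_eq_zero_iff P (a := ⟨_, mem_of_mem_ordGe_one h⟩)).mpr h
  exact ValuationSubring.coe_mem_nonunits_iff.mpr ((IsLocalRing.residue_eq_zero_iff _).mp h2)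

end Tower

namespace AbData

variable {K : Type u} [Field K] [IsAlgClosed K] (X : AbData K)
variable {k F Ω : Type u} [Field k] [IsAlgClosed k] [Algebra K k] [Field F] [Algebra k F]
  [Algebra K F] [IsScalarTower K k F] [FF.IsFunctionField k F] [Field Ω] [IsAlgClosed Ω]
  [Algebra k Ω] [Algebra K Ω] [IsScalarTower K k Ω]

variable (k Ω) in
/-- A point over `F` as a point over the constant extension. -/
def extPt : X.Pt F →+ X.Pt (ConstExt k F Ω) := X.map (inclK K k F Ω)

variable (k F) in
/-- A point over `Ω` as a constant point over the constant extension. -/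
def constPt : X.Pt Ω →+ X.Pt (ConstExt k F Ω) := X.map (constK k F)

omit [IsAlgClosed K] [Algebra K k] [Algebra K F] [IsScalarTower K k F] [IsScalarTower K k Ω] in
theorem redPt_constPt (P : Place Ω (ConstExt k F Ω)) (a : X.Pt Ω) :
    redPt X P (X.constPt k F a) = a :=
  redPt_map_algebraMap P X a

omit [FF.IsFunctionField k F] [IsAlgClosed Ω] [IsAlgClosed K] in
theorem img_extPt (x : X.Pt F) : X.img (X.extPt k Ω x) = X.img x := X.img_map_field _ x

omit [FF.IsFunctionField k F] [IsAlgClosed Ω] in
theorem val_extPt (x : X.Pt F) (h : X.Fun) :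
    X.val (X.extPt k Ω x) h = incl k F Ω (X.val x h) := X.val_map _ x h

omit [IsAlgClosed K] in
/-- The reduction of a point of `F` at a place of the constant extension. -/
theorem redPt_extPt (P : Place Ω (ConstExt k F Ω)) (x : X.Pt F) (W : Subalgebra K F)
    [ValuationRing W] [IsFractionRing W F] (hW : ∀ w : W, incl k F Ω w ∈ P.toValuationSubring)
    (ψ : W →ₐ[K] Ω) (hψ : ∀ w : W, valAt P (incl k F Ω w) = ψ w) :
    redPt X P (X.extPt k Ω x) = X.map ψ (X.extend W x) := by
  let j : W →ₐ[K] placeAlg K P := ((inclK K k F Ω).comp W.val).codRestrict _ hW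
  have h := X.red_map (Ω := ConstExt k F Ω) (valHom K P) j (X.extend W x)
  have hj : (IsScalarTower.toAlgHom K (placeAlg K P) (ConstExt k F Ω)).comp j =
      (inclK K k F Ω).comp (IsScalarTower.toAlgHom K W F) := rfl
  rw [hj, ← X.map_map, X.map_extend] at h
  refine h.trans (X.map_congr (fun w => ?_) _)
  exact (valHom_eq_valAt P (j w)).trans (hψ w)

omit [IsAlgClosed K] in
theorem redPt_extPt_liftPlace (Q : Place k F) (x : X.Pt F) :
    redPt X (liftPlace Q : Place Ω (ConstExt k F Ω)) (X.extPt k Ω x) =
      X.map (IsScalarTower.toAlgHom K k Ω) (redPt X Q x) := by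
  rw [X.redPt_extPt (liftPlace Q) x (placeAlg K Q)
    (fun w => (incl_mem_liftPlace Q _).mpr w.2)
    ((IsScalarTower.toAlgHom K k Ω).comp (valHom K Q)) fun w => ?_, ← X.map_map]
  · rfl
  · rw [valAt_incl_liftPlace Q w.2]
    refine congrArg (algebraMap k Ω) (valAt_eq_of_sub_mem ?_)
    have h := (valHom_eq_iff Q w (valHom K Q w)).mp rfl
    obtain ⟨h1, h2⟩ := ValuationSubring.mem_nonunits_iff_exists_mem_maximalIdeal.mp h
    exact (FF.residue_eq_zero_iff Q (a := ⟨_, h1⟩)).mp ((IsLocalRing.residue_eq_zero_iff _).mpr h2)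

namespace CartierData

variable {X} (D : X.CartierData)

theorem pull_extPt (x : X.Pt F) : D.pull Ω (X.extPt k Ω x) = baseDiv (D.pull k x) := by
  ext P
  rw [pull_apply, locVal, X.img_extPt, X.val_extPt]
  by_cases h : ∃ Q : Place k F, P = liftPlace Q
  · obtain ⟨Q, rfl⟩ := h
    rw [baseDiv_liftPlace, ord_liftPlace, X.redPt_extPt_liftPlace, X.img_map_field]
    rfl
  · rw [baseDiv_apply_of_forall_ne _ (fun Q hQ => h ⟨Q, hQ⟩)]
    exact ((ord_incl_eq_zero_or P).resolve_right h) _

theorem ht_extPt (x : X.Pt F) : D.ht Ω (X.extPt k Ω x) = D.ht k x := by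
  rw [ht, pull_extPt, degree_baseDiv, ht]

end CartierData

end AbData

end Fermat.Agent.AbVar
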