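import Fermat.Agent.AbVar.Height.Place
import Fermat.Agent.CurveTorsion.ValRing

/-!
# Extensions of a place to an algebraic closed extension, with residue field the constants
-/

set_option autoImplicit false

noncomputable section

universe u

open AlgebraicCurve IsLocalRing

namespace Fermat.Agent.AbVar

variable {L S N : Type u} [Field L] [IsAlgClosed L] [Field S] [Algebra L S]
  [FF.IsFunctionField L S] [Field N] [Algebra L N] [Algebra S N] [IsScalarTower L S N]
  [Algebra.IsAlgebraic S N]

omit [IsAlgClosed L] [FF.IsFunctionField L S] [Algebra.IsAlgebraic S N] in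
theorem algebraMap_mem_of_place_le (P : Place L S) {V : ValuationSubring N}
    (hle : ∀ f ∈ P.toValuationSubring, algebraMap S N f ∈ V) (c : L) : algebraMap L N c ∈ V := by
  rw [IsScalarTower.algebraMap_apply L S N]
  exact hle _ (P.algebraMap_mem' c)

/-- A valuation subring over a place, such that every element has a residue in the constants. -/
theorem exists_extension (P : Place L S) :
    ∃ V : ValuationSubring N, (∀ f, algebraMap S N f ∈ V ↔ f ∈ P.toValuationSubring) ∧
      (∀ f ∈ P.toValuationSubring.nonunits, algebraMap S N f ∈ V.nonunits) ∧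
      ∀ x ∈ V, ∃ c : L, x - algebraMap L N c ∈ V.nonunits := by
  obtain ⟨V, hmem, hloc⟩ := IsLocalRing.exists_factor_valuationRing
    ((algebraMap S N).comp P.toValuationSubring.subtype)
  have hle : ∀ f ∈ P.toValuationSubring, algebraMap S N f ∈ V := fun f hf => hmem ⟨f, hf⟩
  have hnon : ∀ f ∈ P.toValuationSubring.nonunits, algebraMap S N f ∈ V.nonunits := by
    intro f hf
    obtain ⟨hf', hfm⟩ := ValuationSubring.mem_nonunits_iff_exists_mem_maximalIdeal.mp hf
    refine ValuationSubring.mem_nonunits_iff_exists_mem_maximalIdeal.mpr ⟨hle f hf', ?_⟩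
    rw [mem_maximalIdeal, mem_nonunits_iff] at hfm ⊢
    exact fun hu => hfm ((isUnit_map_iff (((algebraMap S N).comp
      P.toValuationSubring.subtype).codRestrict V.toSubring hmem) _).mp hu)
  have hiff : ∀ f, algebraMap S N f ∈ V ↔ f ∈ P.toValuationSubring := by
    intro f
    refine ⟨fun hf => ?_, hle f⟩
    by_contra hfP
    rcases eq_or_ne f 0 with rfl | hf0
    · exact hfP (zero_mem _)
    have h1 : f⁻¹ ∈ P.toValuationSubring.nonunits :=
      (ValuationSubring.inv_mem_nonunits_iff _).mpr (Or.inr hfP)
    have h2 := hnon _ h1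
    rw [map_inv₀, ValuationSubring.inv_mem_nonunits_iff] at h2
    exact h2.elim (fun h => hf0 ((map_eq_zero _).mp h)) fun h => h hf
  refine ⟨V, hiff, hnon, fun x hx => ?_⟩
  -- the residue of `x` is algebraic over the residue field `L` of `P`
  have hres : ∀ f ∈ P.toValuationSubring, ∃ c : L,
      algebraMap S N f - algebraMap L N c ∈ V.nonunits := by
    intro f hf
    have h := (valHom_eq_iff (K := L) P ⟨f, hf⟩ (valHom L P ⟨f, hf⟩)).mp rfl
    refine ⟨valHom L P ⟨f, hf⟩, ?_⟩
    have h' := hnon _ h
    rwa [map_sub, ← IsScalarTower.algebraMap_apply] at h'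
  let Vℓ : Subalgebra L N := valAlg V (algebraMap_mem_of_place_le P hle)
  let ρ : Vℓ →ₐ[L] ResidueField Vℓ := IsScalarTower.toAlgHom L Vℓ _
  have hρ : ∀ y : Vℓ, ρ y = 0 ↔ (y : N) ∈ V.nonunits := fun y =>
    (IsLocalRing.residue_eq_zero_iff y).trans ValuationSubring.coe_mem_nonunits_iff.symm
  obtain ⟨p, hp0, hp⟩ := Algebra.IsAlgebraic.isAlgebraic (R := S) x
  -- normalise so that all coefficients are integral, one of them a unit
  have hs : p.support.Nonempty := Polynomial.support_nonempty.mpr hp0
  obtain ⟨m, hm, hmin⟩ := Finset.exists_min_image p.support (fun i => P.ord (p.coeff i)) hs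
  have hm0 : p.coeff m ≠ 0 := Polynomial.mem_support_iff.mp hm
  have hcoef : ∀ i, p.coeff i / p.coeff m ∈ P.toValuationSubring := by
    intro i
    rcases eq_or_ne (p.coeff i) 0 with h | h
    · rw [h, zero_div]; exact zero_mem _
    rw [FF.mem_iff]
    refine Or.inr ?_
    rw [FF.ord_div P h hm0]
    have := hmin i (Polynomial.mem_support_iff.mpr h)
    omega
  have hex : ∀ i, ∃ c : L, algebraMap S N (p.coeff i / p.coeff m) - algebraMap L N c ∈ V.nonunits :=
    fun i => hres _ (hcoef i)
  choose c hc using hex
  let X' : Vℓ := ⟨x, hx⟩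
  let A : ℕ → Vℓ := fun i => ⟨_, hle _ (hcoef i)⟩
  have hA : ∀ i, ρ (A i) = algebraMap L _ (c i) := by
    intro i
    rw [← sub_eq_zero, ← ρ.commutes, ← map_sub, hρ]
    exact hc i
  have hsum : ∑ i ∈ Finset.range (p.natDegree + 1), A i * X' ^ i = 0 := by
    refine Subtype.ext ?_
    rw [AddSubmonoidClass.coe_finsetSum, ZeroMemClass.coe_zero]
    calc ∑ i ∈ Finset.range (p.natDegree + 1), ((A i * X' ^ i : Vℓ) : N)
        = ∑ i ∈ Finset.range (p.natDegree + 1),
            (algebraMap S N (p.coeff m))⁻¹ * (algebraMap S N (p.coeff i) * x ^ i) :=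
          Finset.sum_congr rfl fun i _ => by
            show algebraMap S N (p.coeff i / p.coeff m) * x ^ i = _
            rw [map_div₀]; ring
      _ = (algebraMap S N (p.coeff m))⁻¹ * Polynomial.aeval x p := by
          rw [Polynomial.aeval_eq_sum_range, Finset.mul_sum]
          simp only [Algebra.smul_def]
      _ = 0 := by rw [hp, mul_zero]
  let q : Polynomial L := ∑ i ∈ Finset.range (p.natDegree + 1), Polynomial.monomial i (c i)
  have hq0 : q ≠ 0 := by
    intro h
    have hmr : m ∈ Finset.range (p.natDegree + 1) :=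
      Finset.mem_range.mpr (Nat.lt_succ_of_le (Polynomial.le_natDegree_of_mem_supp m hm))
    have h1 := congrArg (fun r => Polynomial.coeff r m) h
    simp only [q, Polynomial.finsetSum_coeff, Polynomial.coeff_monomial, Finset.sum_ite_eq',
      if_pos hmr, Polynomial.coeff_zero] at h1
    have h2 := hc m
    rw [h1, map_zero, sub_zero, div_self hm0, map_one] at h2
    exact (ValuationSubring.coe_mem_nonunits_iff (a := (1 : V))).mp h2 isUnit_one
  have hroot : Polynomial.aeval (ρ X') q = 0 := by
    rw [← map_zero ρ, ← hsum, map_sum, map_sum]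
    refine Finset.sum_congr rfl fun i _ => ?_
    rw [Polynomial.aeval_monomial, map_mul, map_pow, hA]
  have hint : IsIntegral L (ρ X') := (IsAlgebraic.isIntegral ⟨q, hq0, hroot⟩)
  have hdeg := IsAlgClosed.degree_eq_one_of_irreducible L (minpoly.irreducible hint)
  obtain ⟨d, hd⟩ := minpoly.degree_eq_one_iff.mp hdeg
  refine ⟨d, ?_⟩
  have h3 : ρ (X' - algebraMap L Vℓ d) = 0 := by rw [map_sub, ρ.commutes, hd, sub_self]
  exact (hρ _).mp h3

/-- The residue field of a valuation subring all whose elements have residues among the constants. -/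
def constResidueEquiv (V : ValuationSubring N) [Algebra L V] [IsScalarTower L V N]
    (h : ∀ x ∈ V, ∃ c : L, x - algebraMap L N c ∈ V.nonunits) : L ≃ₐ[L] ResidueField V :=
  AlgEquiv.ofBijective (Algebra.ofId L (ResidueField V))
    ⟨(algebraMap L (ResidueField V)).injective, fun y => by
      obtain ⟨x, rfl⟩ := IsLocalRing.residue_surjective y
      obtain ⟨c, hc⟩ := h x x.2
      refine ⟨c, ?_⟩
      show algebraMap L (ResidueField V) c = _
      rw [IsScalarTower.algebraMap_apply L V (ResidueField V), eq_comm]
      refine sub_eq_zero.mp ?_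
      show IsLocalRing.residue V x - IsLocalRing.residue V _ = 0
      rw [← map_sub, IsLocalRing.residue_eq_zero_iff, ← ValuationSubring.coe_mem_nonunits_iff]
      rw [IsScalarTower.algebraMap_apply L V N] at hc
      exact hc⟩

/-- The residue map of a valuation subring all whose elements have residues among the constants. -/
def constResidue (V : ValuationSubring N) [Algebra L V] [IsScalarTower L V N]
    (h : ∀ x ∈ V, ∃ c : L, x - algebraMap L N c ∈ V.nonunits) : V →ₐ[L] L :=
  (constResidueEquiv V h).symm.toAlgHom.comp (IsScalarTower.toAlgHom L V (ResidueField V))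

omit [IsAlgClosed L] in
theorem constResidue_eq_iff (V : ValuationSubring N) [Algebra L V] [IsScalarTower L V N]
    (h : ∀ x ∈ V, ∃ c : L, x - algebraMap L N c ∈ V.nonunits) (x : V) (c : L) :
    constResidue V h x = c ↔ (x : N) - algebraMap L N c ∈ V.nonunits := by
  rw [IsScalarTower.algebraMap_apply L V N]
  show (constResidueEquiv V h).symm (IsLocalRing.residue V x) = c ↔
    ((x - algebraMap L V c : V) : N) ∈ V.nonunits
  rw [ValuationSubring.coe_mem_nonunits_iff, ← IsLocalRing.residue_eq_zero_iff, map_sub,
    sub_eq_zero, AlgEquiv.symm_apply_eq]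
  show _ = algebraMap L (ResidueField V) c ↔ _
  rw [IsScalarTower.algebraMap_apply L V (ResidueField V)]
  rfl

omit [IsAlgClosed L] in
theorem surjective_constResidue (V : ValuationSubring N) [Algebra L V] [IsScalarTower L V N]
    (h : ∀ x ∈ V, ∃ c : L, x - algebraMap L N c ∈ V.nonunits) :
    Function.Surjective (constResidue V h) := fun c =>
  ⟨algebraMap L V c, (constResidue V h).commutes c⟩

end Fermat.Agent.AbVar
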