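import Fermat.Agent.AbVar.Height.ProductFormula

/-!
# The parallelogram law from a principal divisor
-/

set_option autoImplicit false

noncomputable section

universe u

open CategoryTheory CategoryTheory.Limits AlgebraicGeometry NeronModelInfra GoodReductionJacobian
open AlgebraicCurve IsLocalRing
open scoped Classical

namespace Fermat.Agent.AbVar

variable {k F Ω : Type u} [Field k] [IsAlgClosed k] [Field F] [Algebra k F] [FF.IsFunctionField k F]
  [Field Ω] [IsAlgClosed Ω] [Algebra k Ω]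

omit [IsAlgClosed Ω] in
/-- The place at which the values are given by an embedding of the field. -/
theorem exists_diagonal_place (φ : F →ₐ[k] Ω) :
    ∃ P : Place Ω (ConstExt k F Ω), ∀ f : F,
      incl k F Ω f ∈ P.toValuationSubring ∧ valAt P (incl k F Ω f) = φ f := by
  obtain ⟨P, hP⟩ := exists_place_of_hom (k := k) (⊤ : ValuationSubring F)
    (fun _ => ValuationSubring.mem_top _)
    (φ.toRingHom.comp (⊤ : ValuationSubring F).subtype) φ.commutes fun w => by
      show φ (w : F) = 0 ↔ _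
      rw [map_eq_zero, mem_maximalIdeal, mem_nonunits_iff]
      refine ⟨fun h hu => hu.ne_zero (Subtype.ext h), fun h => by_contra fun h0 => h ?_⟩
      exact IsUnit.of_mul_eq_one ⟨(w : F)⁻¹, ValuationSubring.mem_top _⟩
        (Subtype.ext (mul_inv_cancel₀ h0))
  exact ⟨P, fun f => ⟨(hP f).1.mpr (ValuationSubring.mem_top f),
    valAt_eq_of_sub_mem ((hP f).2 (ValuationSubring.mem_top f))⟩⟩

namespace AbData

variable {K : Type u} [Field K] [IsAlgClosed K] (X : AbData K)
variable [Algebra K k] [Algebra K F] [IsScalarTower K k F] [Algebra K Ω] [IsScalarTower K k Ω]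
  [Algebra F Ω] [IsScalarTower k F Ω] [IsScalarTower K F Ω]

omit [IsScalarTower k F Ω] [IsAlgClosed K] in
/-- At the diagonal place a point of `F` reduces to itself. -/
theorem redPt_extPt_diagonal (P : Place Ω (ConstExt k F Ω))
    (hP : ∀ f : F, incl k F Ω f ∈ P.toValuationSubring ∧
      valAt P (incl k F Ω f) = algebraMap F Ω f) (x : X.Pt F) :
    redPt X P (X.extPt k Ω x) = X.map (IsScalarTower.toAlgHom K F Ω) x := by
  rw [X.redPt_extPt P x (valAlg (⊤ : ValuationSubring F) fun _ => ValuationSubring.mem_top _)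
    (fun w => (hP w).1) ((IsScalarTower.toAlgHom K F Ω).comp (Subalgebra.val _))
    (fun w => (hP w).2), ← X.map_map]
  congr 1
  exact X.map_extend x

namespace CartierData

variable {X} (D : X.CartierData)

/-- The parallelogram law for two points, from a function on the constant extension. -/
theorem ht_parallelogram_of_principal [Algebra.IsAlgebraic F Ω] {x y : X.Pt F} {o : Place k F}
    (hx : redPt X o x = 0)
    (hdiv : D.pull Ω (X.extPt k Ω x + X.constPt k F (X.map (IsScalarTower.toAlgHom K F Ω) y)) +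
      D.pull Ω (X.extPt k Ω x - X.constPt k F (X.map (IsScalarTower.toAlgHom K F Ω) y)) -
      2 • D.pull Ω (X.extPt k Ω x) ∈ Divisor.principal (K := Ω) (F := ConstExt k F Ω)) :
    D.ht k (x + y) + D.ht k (x - y) - 2 * D.ht k x = D.ht k y + D.ht k (-y) := by
  obtain ⟨f, hf0, hf⟩ := Divisor.mem_principal.mp hdiv
  set η := X.map (IsScalarTower.toAlgHom K F Ω) y with hη
  set A₁ := X.extPt k Ω x + X.constPt k F η with hA₁
  set A₂ := X.extPt k Ω x + X.constPt k F (-η) with hA₂
  set A₃ := X.extPt k Ω x + X.constPt k F 0 with hA₃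
  have e₂ : X.extPt k Ω x - X.constPt k F η = A₂ := by rw [hA₂, map_neg, ← sub_eq_add_neg]
  have e₃ : X.extPt k Ω x = A₃ := by rw [hA₃, map_zero, add_zero]
  have hford : ∀ P, P.ord f = D.pull Ω A₁ P + D.pull Ω A₂ P - 2 * D.pull Ω A₃ P := fun P => by
    rw [← hf P, Finsupp.sub_apply, Finsupp.add_apply, Finsupp.smul_apply, e₂, e₃, nsmul_eq_mul,
      Nat.cast_ofNat]
  obtain ⟨Δ, hΔ⟩ := exists_diagonal_place (Ω := Ω) (IsScalarTower.toAlgHom k F Ω)
  set P₀ : Place Ω (ConstExt k F Ω) := liftPlace o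
  have hΔx : redPt X Δ (X.extPt k Ω x) = X.map (IsScalarTower.toAlgHom K F Ω) x :=
    X.redPt_extPt_diagonal Δ hΔ x
  have hox : redPt X P₀ (X.extPt k Ω x) = 0 := by
    rw [X.redPt_extPt_liftPlace, hx, map_zero]
  set φ := D.normalised f A₁ A₂ A₃ Δ / D.normalised f A₁ A₂ A₃ P₀ with hφ
  let F₁ : IntermediateField F Ω := IntermediateField.adjoin F {φ}
  have : FiniteDimensional F F₁ :=
    IntermediateField.adjoin.finiteDimensional (Algebra.IsAlgebraic.isAlgebraic φ).isIntegral
  have : FF.IsFunctionField k F₁ := FF.isFunctionField_extension k F F₁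
  have : IsScalarTower K k F₁ := IsScalarTower.of_algebraMap_eq fun c => by
    rw [IsScalarTower.algebraMap_apply K F F₁, IsScalarTower.algebraMap_apply K k F,
      ← IsScalarTower.algebraMap_apply k F F₁]
  have : IsScalarTower K F₁ Ω := IsScalarTower.of_algebraMap_eq fun c => by
    rw [IsScalarTower.algebraMap_apply K F F₁, ← IsScalarTower.algebraMap_apply F F₁ Ω,
      ← IsScalarTower.algebraMap_apply K F Ω]
  have : IsScalarTower k F₁ Ω := IsScalarTower.of_algebraMap_eq fun c => by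
    rw [IsScalarTower.algebraMap_apply k F F₁, ← IsScalarTower.algebraMap_apply F F₁ Ω,
      ← IsScalarTower.algebraMap_apply k F Ω]
  have : Algebra.IsAlgebraic F₁ Ω := Algebra.IsAlgebraic.tower_top (K := F) F₁
  let ι : F₁ →ₐ[K] Ω := IsScalarTower.toAlgHom K F₁ Ω
  let j : X.Pt F →+ X.Pt F₁ := X.map (IsScalarTower.toAlgHom K F F₁)
  have hιj : ∀ b, X.map ι (j b) = X.map (IsScalarTower.toAlgHom K F Ω) b := fun b => by
    rw [X.map_map]
    exact X.map_congr (fun r => (IsScalarTower.algebraMap_apply F F₁ Ω r).symm) b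
  let φ₁ : F₁ := ⟨φ, IntermediateField.mem_adjoin_simple_self F φ⟩
  -- compare at each place of `F₁`
  have key : ∀ w : Place k F₁, w.ord φ₁ = D.pull k (j (x + y)) w + D.pull k (j (x - y)) w -
      2 * D.pull k (j x) w - (D.pull k (j y) w + D.pull k (j (-y)) w - 2 * D.pull k (j 0) w) := by
    intro w
    obtain ⟨V, hiff, hnon, hres⟩ := exists_extension (N := Ω) w
    let : Algebra k V := inferInstanceAs
      (Algebra k (valAlg V (algebraMap_mem_of_place_le w fun f hf => (hiff f).mpr hf)))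
    let : Algebra K V := inferInstanceAs
      (Algebra K (valAlg V (algebraMap_mem_of_place_le w fun f hf => (hiff f).mpr hf)))
    have : IsScalarTower k V Ω := inferInstanceAs (IsScalarTower k
      (valAlg V (algebraMap_mem_of_place_le w fun f hf => (hiff f).mpr hf)) Ω)
    have : IsScalarTower K V Ω := inferInstanceAs (IsScalarTower K
      (valAlg V (algebraMap_mem_of_place_le w fun f hf => (hiff f).mpr hf)) Ω)
    have : IsScalarTower K k V := inferInstanceAs (IsScalarTower K k
      (valAlg V (algebraMap_mem_of_place_le w fun f hf => (hiff f).mpr hf)))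
    let r : V →ₐ[k] k := constResidue V hres
    have hr : Function.Surjective r := surjective_constResidue V hres
    have hred : ∀ b : X.Pt F₁, X.redConst r (X.map ι b) = redPt X w b := by
      intro b
      obtain ⟨b, rfl⟩ := (X.bijective_map_toFractionRing (placeAlg K w) F₁).2 b
      let jw : placeAlg K w →ₐ[K] V :=
        { toFun := fun g => ⟨algebraMap F₁ Ω (g : F₁), (hiff _).mpr g.2⟩
          map_one' := Subtype.ext (map_one _)
          map_mul' := fun a b => Subtype.ext (map_mul _ _ _)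
          map_zero' := Subtype.ext (map_zero _)
          map_add' := fun a b => Subtype.ext (map_add _ _ _)
          commutes' := fun c => Subtype.ext (IsScalarTower.algebraMap_apply K F₁ Ω c).symm }
      have h := X.red_map (Ω := Ω) (r.restrictScalars K) jw b
      have hj : (IsScalarTower.toAlgHom K V Ω).comp jw =
          ι.comp (IsScalarTower.toAlgHom K (placeAlg K w) F₁) := rfl
      rw [hj, ← X.map_map] at h
      rw [redPt, X.red_apply, X.extend_map]
      refine h.trans (X.map_congr (fun g => ?_) b)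
      show constResidue V hres (jw g) = valHom K w g
      rw [constResidue_eq_iff]
      show algebraMap F₁ Ω (g : F₁) - _ ∈ _
      rw [IsScalarTower.algebraMap_apply k F₁ Ω, ← map_sub]
      exact hnon _ ((valHom_eq_iff w g _).mp rfl)
    obtain ⟨c, hc, hscale⟩ := D.exists_scale r hr x x x η (-η) 0 hf0 hford
    obtain ⟨uΔ, huΔ, eΔ⟩ := hscale Δ
    obtain ⟨uo, huo, eo⟩ := hscale P₀
    let ℓ : X.Pt F₁ → F₁ := fun b => D.locVal b (X.img (redPt X w b))
    have hℓ : ∀ b, D.redVal' r (X.map ι b) = algebraMap F₁ Ω (ℓ b) := fun b => by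
      rw [redVal', hred, locVal, X.img_map_field, X.val_map]
      rfl
    have b₁ : redPt X Δ A₁ = X.map ι (j (x + y)) := by
      rw [hA₁, map_add, hΔx, X.redPt_constPt, hιj, map_add]
    have b₂ : redPt X Δ A₂ = X.map ι (j (x - y)) := by
      rw [hA₂, map_add, hΔx, X.redPt_constPt, hιj, map_sub, sub_eq_add_neg]
    have b₃ : redPt X Δ A₃ = X.map ι (j x) := by
      rw [hA₃, map_add, hΔx, X.redPt_constPt, hιj, add_zero]
    have c₁ : redPt X P₀ A₁ = X.map ι (j y) := by
      rw [hA₁, map_add, hox, X.redPt_constPt, hιj, zero_add]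
    have c₂ : redPt X P₀ A₂ = X.map ι (j (-y)) := by
      rw [hA₂, map_add, hox, X.redPt_constPt, hιj, zero_add, map_neg]
    have c₃ : redPt X P₀ A₃ = X.map ι (j 0) := by
      rw [hA₃, map_add, hox, X.redPt_constPt, hιj, zero_add, map_zero]
    rw [b₁, b₂, b₃, hℓ, hℓ, hℓ] at eΔ
    rw [c₁, c₂, c₃, hℓ, hℓ, hℓ] at eo
    have hℓ0 : ∀ b, ℓ b ≠ 0 := fun b => D.locVal_ne_zero (img_specializes_redPt w X b)
    set s₁ := ℓ (j (x + y)) * ℓ (j (x - y)) / ℓ (j x) ^ 2 with hs₁
    set s₀ := ℓ (j y) * ℓ (j (-y)) / ℓ (j 0) ^ 2 with hs₀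
    have hs₁0 : s₁ ≠ 0 := div_ne_zero (mul_ne_zero (hℓ0 _) (hℓ0 _)) (pow_ne_zero _ (hℓ0 _))
    have hs₀0 : s₀ ≠ 0 := div_ne_zero (mul_ne_zero (hℓ0 _) (hℓ0 _)) (pow_ne_zero _ (hℓ0 _))
    have eΔ' : D.normalised f A₁ A₂ A₃ Δ = c * (uΔ : Ω) * algebraMap F₁ Ω s₁ := by
      rw [eΔ, hs₁, map_div₀, map_mul, map_pow]
    have eo' : D.normalised f A₁ A₂ A₃ P₀ = c * (uo : Ω) * algebraMap F₁ Ω s₀ := by
      rw [eo, hs₀, map_div₀, map_mul, map_pow]
    have hu0 : ∀ {u : V}, IsUnit u → (u : Ω) ≠ 0 := fun {u} hu h => hu.ne_zero (Subtype.ext h)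
    set t := φ₁ * s₀ / s₁ with ht
    have htΩ : algebraMap F₁ Ω t = (uΔ : Ω) / (uo : Ω) := by
      have h1 := hu0 huΔ
      have h0 := hu0 huo
      have := (map_ne_zero (algebraMap F₁ Ω)).mpr hs₁0
      have := (map_ne_zero (algebraMap F₁ Ω)).mpr hs₀0
      rw [ht, map_div₀, map_mul, show algebraMap F₁ Ω φ₁ = φ from rfl, hφ, eΔ', eo']
      field_simp
    have hdivmem : ∀ {u v : V}, IsUnit v → (u : Ω) / (v : Ω) ∈ V := fun {u v} hv => by
      obtain ⟨v, rfl⟩ := hv
      have : (((v⁻¹ : Vˣ) : V) : Ω) = ((v : V) : Ω)⁻¹ := eq_inv_of_mul_eq_one_left (by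
        rw [← MulMemClass.coe_mul, Units.inv_mul, OneMemClass.coe_one])
      rw [div_eq_mul_inv, ← this]
      exact mul_mem u.2 ((v⁻¹ : Vˣ) : V).2
    have ht0 : w.ord t = 0 := by
      have h1 : t ∈ w.toValuationSubring := (hiff t).mp (htΩ ▸ hdivmem huo)
      have h2 : t⁻¹ ∈ w.toValuationSubring := (hiff t⁻¹).mp (by
        rw [map_inv₀, htΩ, inv_div]; exact hdivmem huΔ)
      have h3 := FF.ord_nonneg w h1
      have h4 := FF.ord_nonneg w h2
      rw [w.ord_inv] at h4
      omega
    have ht1 : φ₁ = t * s₁ / s₀ := by rw [ht]; field_simp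
    have htne : t ≠ 0 := fun h => by
      rw [h, map_zero] at htΩ
      exact div_ne_zero (hu0 huΔ) (hu0 huo) htΩ.symm
    rw [ht1, FF.ord_div w (mul_ne_zero htne hs₁0) hs₀0, w.ord_mul htne hs₁0, ht0, zero_add, hs₁,
      hs₀, FF.ord_div w (mul_ne_zero (hℓ0 _) (hℓ0 _)) (pow_ne_zero _ (hℓ0 _)),
      FF.ord_div w (mul_ne_zero (hℓ0 _) (hℓ0 _)) (pow_ne_zero _ (hℓ0 _)), w.ord_mul (hℓ0 _) (hℓ0 _),
      w.ord_mul (hℓ0 _) (hℓ0 _), FF.ord_pow, FF.ord_pow]
    simp only [ℓ, pull_apply]
    push_cast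
    ring
  have hsum : D.pull k (j (x + y)) + D.pull k (j (x - y)) - 2 • D.pull k (j x) -
      (D.pull k (j y) + D.pull k (j (-y)) - 2 • D.pull k (j 0)) = FF.div k φ₁ := by
    ext w
    rw [FF.div_apply, key w]
    simp only [Finsupp.sub_apply, Finsupp.add_apply, Finsupp.smul_apply, nsmul_eq_mul,
      Nat.cast_ofNat]
  have hdeg := congrArg Divisor.degree hsum
  have aux : ∀ a b c d e g : Divisor k F₁, Divisor.degree (a + b - 2 • c - (d + e - 2 • g)) =
      Divisor.degree a + Divisor.degree b - 2 • Divisor.degree c -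
        (Divisor.degree d + Divisor.degree e - 2 • Divisor.degree g) := fun a b c d e g => by
    simp only [map_sub, map_add, map_nsmul]
  rw [aux, FF.degree_div] at hdeg
  have hj : ∀ b, Divisor.degree (D.pull k (j b)) = Module.finrank F F₁ * D.ht k b := fun b =>
    D.ht_map b
  simp only [hj, nsmul_eq_mul, Nat.cast_ofNat] at hdeg
  have h0 : D.ht k (0 : X.Pt F) = 0 := by
    have h := D.ht_map_algebraMap (k := k) (F := F) (0 : X.Pt k)
    rwa [map_zero] at h
  simp only [h0, mul_zero, sub_zero] at hdeg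
  have hr0 : (Module.finrank F F₁ : ℤ) ≠ 0 := by exact_mod_cast Module.finrank_pos.ne'
  refine mul_left_cancel₀ hr0 ?_
  linarith

end CartierData

end AbData

end Fermat.Agent.AbVar
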