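import Fermat.Agent.AbVar.Height.ConstExt
import Fermat.Agent.AbVar.Scheme.Tangent
import Fermat.Agent.AbVar.Curve.RedDivisor

/-!
# Specialisation of the height along a reduction of the constants
-/

set_option autoImplicit false

noncomputable section

universe u

open CategoryTheory CategoryTheory.Limits AlgebraicGeometry NeronModelInfra GoodReductionJacobian
open AlgebraicCurve IsLocalRing
open scoped Classical

namespace Fermat.Agent.AbVar

/-- Push forwards of divisors agree at a point if the divisors agree over it. -/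
theorem mapDomain_apply_congr {α β : Type*} (f : α → β) (D₁ D₂ : α →₀ ℤ) {q : β}
    (h : ∀ a, f a = q → D₁ a = D₂ a) :
    Finsupp.mapDomain f D₁ q = Finsupp.mapDomain f D₂ q := by
  have h0 : ∀ D : α →₀ ℤ, (∀ a, f a = q → D a = 0) → Finsupp.mapDomain f D q = 0 := by
    intro D hD
    rw [Finsupp.mapDomain, Finsupp.sum_apply]
    refine Finset.sum_eq_zero fun a _ => ?_
    simp only [Finsupp.single_apply]
    split_ifs with ha
    · exact hD a ha
    · rfl
  have h1 := h0 (D₁ - D₂) fun a ha => by rw [Finsupp.sub_apply, h a ha, sub_self]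
  have h2 : Finsupp.mapDomain f (D₁ - D₂) = Finsupp.mapDomain f D₁ - Finsupp.mapDomain f D₂ :=
    map_sub (Finsupp.mapDomain.addMonoidHom f) D₁ D₂
  rwa [h2, Finsupp.sub_apply, sub_eq_zero] at h1

variable {k F Ω : Type u} [Field k] [IsAlgClosed k] [Field F] [Algebra k F]
  [FF.IsFunctionField k F] [Field Ω] [IsAlgClosed Ω] [Algebra k Ω]
variable {V : ValuationSubring Ω} [Algebra k V] [IsScalarTower k V Ω] {κ : Type u} [Field κ]
  [IsAlgClosed κ] [Algebra k κ]

/-- Reductions of principal divisors are principal. -/
theorem mapDomain_red_principal (r : V →ₐ[k] κ) (hr : Function.Surjective r)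
    {D : Divisor Ω (ConstExt k F Ω)} (hD : D ∈ Divisor.principal (K := Ω) (F := ConstExt k F Ω)) :
    Finsupp.mapDomain (red r hr) D ∈ Divisor.principal (K := κ) (F := ConstExt k F κ) := by
  obtain ⟨e, he, hDe⟩ := Divisor.mem_principal.mp hD
  obtain ⟨c, hc, g, hg, rfl⟩ := exists_primitive r he
  have hD' : D = FF.div Ω (g : ConstExt k F Ω) := by
    ext P
    rw [hDe P, FF.div_apply, P.ord_mul ((map_ne_zero _).mpr hc) (right_ne_zero_of_mul he),
      FF.ord_algebraMap, zero_add]
  rw [hD', mapDomain_red_div hr g hg]
  exact ⟨_, hg, fun v => rfl⟩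

namespace AbData

variable {K : Type u} [Field K] [IsAlgClosed K] {X : AbData K}
variable [Algebra K k] [Algebra K F] [IsScalarTower K k F] [Algebra K Ω] [IsScalarTower K k Ω]
  [Algebra K V] [IsScalarTower K k V] [IsScalarTower K V Ω] [Algebra K κ] [IsScalarTower K k κ]

variable (X) in
/-- The reduction of a constant point. -/
def redConst (r : V →ₐ[k] κ) : X.Pt Ω →+ X.Pt κ := X.red (r.restrictScalars K)

omit [IsAlgClosed k] [IsAlgClosed Ω] [IsAlgClosed κ] [Algebra k Ω] [IsScalarTower k (↥V) Ω]
  [IsAlgClosed K] [Algebra K Ω] [IsScalarTower K k Ω] [IsScalarTower K (↥V) Ω] in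
theorem isLocalHom_restrictScalars (r : V →ₐ[k] κ) (hr : Function.Surjective r) :
    IsLocalHom (r.restrictScalars K).toRingHom :=
  IsLocalHom.of_surjective _ hr

theorem algebraMap_mem_gaussK (r : V →ₐ[k] κ) (hr : Function.Surjective r) (c : K) :
    algebraMap K (ConstExt k F Ω) c ∈ gauss (F := F) r := by
  rw [algebraMap_const_apply, algebraMap_mem_gauss_iff r hr, IsScalarTower.algebraMap_apply K V Ω]
  exact (algebraMap K V c).2

/-- The reduction on the Gauss ring, over the small field. -/
def gaussHom (r : V →ₐ[k] κ) (hr : Function.Surjective r) :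
    valAlg (gauss (F := F) r) (algebraMap_mem_gaussK (K := K) r hr) →ₐ[K] ConstExt k F κ where
  __ := (gaussRed r).comp (RingHom.id (gauss (F := F) r) :
    valAlg (gauss (F := F) r) (algebraMap_mem_gaussK (K := K) r hr) →+* gauss (F := F) r)
  commutes' c := by
    have h : algebraMap Ω (ConstExt k F Ω) (algebraMap K V c : Ω) ∈ gauss (F := F) r :=
      (algebraMap_mem_gauss_iff r hr).mpr (algebraMap K V c).2
    show gaussRed r ⟨algebraMap K (ConstExt k F Ω) c, _⟩ = algebraMap K (ConstExt k F κ) c
    rw [algebraMap_const_apply (k := k) (Ω := κ), ← (r.restrictScalars K).commutes c]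
    refine Eq.trans (congrArg (gaussRed r) (Subtype.ext ?_)) (gaussRed_algebraMap r _)
    show algebraMap K (ConstExt k F Ω) c = _
    rw [algebraMap_const_apply, IsScalarTower.algebraMap_apply K V Ω]
    rfl

theorem isLocalHom_gaussHom (r : V →ₐ[k] κ) (hr : Function.Surjective r) :
    IsLocalHom (gaussHom (K := K) (F := F) r hr).toRingHom :=
  IsLocalHom.of_surjective _ (gaussRed_surjective r hr)

theorem red_gaussHom_extPt (r : V →ₐ[k] κ) (hr : Function.Surjective r) (x : X.Pt F) :
    X.red (gaussHom (K := K) (F := F) r hr) (X.extPt k Ω x) = X.extPt k κ x := by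
  let j : F →ₐ[K] valAlg (gauss (F := F) r) (algebraMap_mem_gaussK (K := K) r hr) :=
    (inclK K k F Ω).codRestrict _ (incl_mem_gauss r)
  have h := X.red_map (Ω := ConstExt k F Ω) (gaussHom (K := K) (F := F) r hr) j x
  exact h.trans (X.map_congr (fun f => gaussRed_incl r f) x)

theorem red_gaussHom_constPt (r : V →ₐ[k] κ) (hr : Function.Surjective r) (a : X.Pt Ω) :
    X.red (gaussHom (K := K) (F := F) r hr) (X.constPt k F a) =
      X.constPt k F (X.redConst r a) := by
  let j : V →ₐ[K] valAlg (gauss (F := F) r) (algebraMap_mem_gaussK (K := K) r hr) :=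
    ((constK k F).comp (IsScalarTower.toAlgHom K V Ω)).codRestrict _
      fun v => (algebraMap_mem_gauss_iff r hr).mpr v.2
  have h := X.red_map (Ω := ConstExt k F Ω) (gaussHom (K := K) (F := F) r hr) j (X.extend V a)
  have hj : (IsScalarTower.toAlgHom K (valAlg (gauss (F := F) r)
      (algebraMap_mem_gaussK (K := K) r hr)) (ConstExt k F Ω)).comp j =
      (constK k F).comp (IsScalarTower.toAlgHom K V Ω) := rfl
  rw [hj, ← X.map_map, X.map_extend] at h
  refine h.trans ?_
  rw [redConst, X.red_apply, constPt, X.map_map]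
  exact X.map_congr (fun v => gaussRed_algebraMap r v) _

omit [IsAlgClosed K] in
/-- Reduction at a place commutes with the reduction of the constants. -/
theorem redPt_red (r : V →ₐ[k] κ) (hr : Function.Surjective r) (P : Place Ω (ConstExt k F Ω))
    (x : X.Pt F) (a : X.Pt Ω) :
    redPt X (AbVar.red r hr P) (X.extPt k κ x + X.constPt k F (X.redConst r a)) =
      X.redConst r (redPt X P (X.extPt k Ω x + X.constPt k F a)) := by
  rw [map_add, map_add, X.redPt_constPt, X.redPt_constPt, map_add]
  refine congrArg (· + X.redConst r a) ?_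
  let W : ValuationSubring F := (AbVar.red r hr P).toValuationSubring.comap (incl k F κ).toRingHom
  have hWK : ∀ c, algebraMap K F c ∈ W := fun c => by
    show incl k F κ (algebraMap K F c) ∈ (AbVar.red r hr P).toValuationSubring
    rw [IsScalarTower.algebraMap_apply K k F, incl_algebraMap]
    exact (AbVar.red r hr P).algebraMap_mem' _
  have hmem : ∀ w : valAlg W hWK, incl k F Ω w ∈ P.toValuationSubring ∧
      valAt P (incl k F Ω w) ∈ V := fun w => (mem_red_iff hr P w).mp w.2
  let ψ : valAlg W hWK →ₐ[K] V :=
    { toFun := fun w => ⟨valAt P (incl k F Ω w), (hmem w).2⟩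
      map_one' := Subtype.ext (by
        show valAt P (incl k F Ω 1) = 1
        rw [map_one, ← map_one (algebraMap Ω (ConstExt k F Ω)), valAt_algebraMap])
      map_mul' := fun a b => Subtype.ext (by
        show valAt P (incl k F Ω (a * b)) = _
        rw [map_mul, valAt_mul P (hmem a).1 (hmem b).1]
        rfl)
      map_zero' := Subtype.ext (by
        show valAt P (incl k F Ω 0) = 0
        rw [map_zero, valAt_eq_zero_of_mem (zero_mem _)])
      map_add' := fun a b => Subtype.ext (by
        show valAt P (incl k F Ω (a + b)) = _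
        rw [map_add, valAt_add P (hmem a).1 (hmem b).1]
        rfl)
      commutes' := fun c => Subtype.ext (by
        show valAt P (incl k F Ω (algebraMap K F c)) = (algebraMap K V c : Ω)
        rw [IsScalarTower.algebraMap_apply K k F, incl_algebraMap, valAt_algebraMap,
          ← IsScalarTower.algebraMap_apply, IsScalarTower.algebraMap_apply K V Ω]
        rfl) }
  rw [X.redPt_extPt (AbVar.red r hr P) x (valAlg W hWK) (fun w => w.2)
      ((r.restrictScalars K).comp ψ) (fun w => valAt_red hr P (hmem w).1 (hmem w).2),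
    X.redPt_extPt P x (valAlg W hWK) (fun w => (hmem w).1)
      ((IsScalarTower.toAlgHom K V Ω).comp ψ) (fun w => rfl)]
  exact (X.red_map (r.restrictScalars K) ψ _).symm

namespace CartierData

variable (D : X.CartierData)

/-- The pullback specialises, up to linear equivalence. -/
theorem mapDomain_red_pull_sub_mem (r : V →ₐ[k] κ) (hr : Function.Surjective r)
    (x : X.Pt F) (a : X.Pt Ω) :
    Finsupp.mapDomain (AbVar.red r hr) (D.pull Ω (X.extPt k Ω x + X.constPt k F a)) -
        D.pull κ (X.extPt k κ x + X.constPt k F (X.redConst r a)) ∈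
      Divisor.principal (K := κ) (F := ConstExt k F κ) := by
  have := isLocalHom_gaussHom (K := K) (F := F) r hr
  have := isLocalHom_restrictScalars (K := K) r hr
  set y := X.extPt k Ω x + X.constPt k F a with hy
  set y' := X.extPt k κ x + X.constPt k F (X.redConst r a) with hy'
  have hred : X.red (gaussHom (K := K) (F := F) r hr) y = y' := by
    rw [map_add, red_gaussHom_extPt, red_gaussHom_constPt]
  have hsy : X.img y ⤳ X.img y' := hred ▸ X.img_specializes_red _ y
  -- the change of reference from the image of `y` to that of `y'`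
  set e := D.locVal y (X.img y') with he
  have he0 : e ≠ 0 := D.locVal_ne_zero hsy
  have key : Finsupp.mapDomain (AbVar.red r hr) (D.pull Ω y - FF.div Ω e) = D.pull κ y' := by
    ext Q
    set w := X.img (redPt X Q y') with hw
    have hsw : X.img y' ⤳ w := img_specializes_redPt Q X y'
    obtain ⟨hh, hh'⟩ := D.div_mem_of_specializes hsw
    obtain ⟨c, hc, hc'⟩ := X.ev_red (gaussHom (K := K) (F := F) r hr) y
      (h := D.gen w / D.gen (X.img y'))
      (X.mem_loc_congr (congrArg X.img hred).symm hh) (X.loc_le_of_specializes hsy hh)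
    rw [X.ev_congr hred _ hh, ← X.val_eq] at hc'
    rw [← X.val_eq] at hc
    let g : gauss (F := F) r := ⟨(c : ConstExt k F Ω), c.2⟩
    have hgred : gaussRed r g = D.locVal y' w := hc'
    have hg0 : gaussRed r g ≠ 0 := by rw [hgred]; exact D.locVal_ne_zero hsw
    have hgval : (g : ConstExt k F Ω) = X.val y (D.gen w / D.gen (X.img y')) := hc.symm
    rw [mapDomain_apply_congr _ _ (FF.div Ω (g : ConstExt k F Ω)) (fun P hP => ?_),
      mapDomain_red_div hr g hg0, FF.div_apply, hgred, D.pull_apply]
    -- at a place over `Q` the multiplicity is given by the equation at `w`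
    subst hP
    have hs2 : X.img (redPt X P y) ⤳ w := by
      rw [hw, hy', X.redPt_red r hr P x a]
      exact X.img_specializes_red _ _
    have hsyw : X.img y ⤳ w := (img_specializes_redPt P X y).trans hs2
    obtain ⟨h1, h2⟩ := D.div_mem_of_specializes hs2
    rw [Finsupp.sub_apply, D.pull_apply_of_coherent y P w hsyw h1 h2, FF.div_apply, hgval,
      FF.div_apply, he, D.locVal_eq_mul hsyw hsy (X.loc_le_of_specializes hsy hh),
      P.ord_mul ?_ (D.locVal_ne_zero hsy), add_sub_cancel_right]
    refine X.val_ne_zero (div_ne_zero (D.gen_ne_zero _) (D.gen_ne_zero _))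
      (X.loc_le_of_specializes hsy hh) ?_
    rw [inv_div]
    exact X.loc_le_of_specializes hsy hh'
  have hsplit : Finsupp.mapDomain (AbVar.red r hr) (D.pull Ω y) =
      D.pull κ y' + Finsupp.mapDomain (AbVar.red r hr) (FF.div Ω e) := by
    rw [← key, ← Finsupp.mapDomain_add, sub_add_cancel]
  rw [hsplit, add_sub_cancel_left]
  exact mapDomain_red_principal r hr ⟨e, he0, fun v => rfl⟩

/-- The height is invariant under specialisation. -/
theorem ht_redConst (r : V →ₐ[k] κ) (hr : Function.Surjective r) (x : X.Pt F) (a : X.Pt Ω) :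
    D.ht κ (X.extPt k κ x + X.constPt k F (X.redConst r a)) =
      D.ht Ω (X.extPt k Ω x + X.constPt k F a) := by
  obtain ⟨f, hf, hD⟩ := Divisor.mem_principal.mp (D.mapDomain_red_pull_sub_mem r hr x a)
  have h : (Finsupp.mapDomain (AbVar.red r hr) (D.pull Ω (X.extPt k Ω x + X.constPt k F a)) -
      D.pull κ (X.extPt k κ x + X.constPt k F (X.redConst r a))) = FF.div κ f := by
    ext v; rw [hD v, FF.div_apply]
  have h1 := congrArg Divisor.degree h
  rw [map_sub, degree_mapDomain_red, FF.degree_div, sub_eq_zero] at h1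
  exact h1.symm

end CartierData

end AbData

end Fermat.Agent.AbVar
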