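import Fermat.Agent.AbVar.Height.Specialise
import Fermat.Agent.AbVar.Height.Spec
import Fermat.Agent.AbVar.Curve.TensorDomain
import Fermat.Agent.AbVar.Count.Quadratic

/-!
# Invariance of the height under rational translations
-/

set_option autoImplicit false

noncomputable section

universe u

open CategoryTheory CategoryTheory.Limits AlgebraicGeometry NeronModelInfra GoodReductionJacobian
open AlgebraicCurve IsLocalRing
open scoped TensorProduct

namespace Fermat.Agent.AbVar

namespace AbData

variable {K : Type u} [Field K] [IsAlgClosed K] {X : AbData K}

namespace CartierData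

variable (D : X.CartierData)
variable (k F : Type u) [Field k] [IsAlgClosed k] [Algebra K k] [Field F] [Algebra k F]
  [Algebra K F] [IsScalarTower K k F] [FF.IsFunctionField k F]

/-- The height is invariant under rational translations. -/
theorem transInvariant : D.TransInvariant k F := by
  intro x a
  have : IsDomain (k ⊗[K] X.Fun) := isDomain_tensorProduct K k X.Fun
  have key : ∀ b : X.Pt K, D.ht k (x + X.const F b) =
      D.ht (X.UnivField k) (X.extPt k (X.UnivField k) x + X.constPt k F (X.univPt k)) := by
    intro b
    obtain ⟨V, hV, hred⟩ := X.exists_specialise (X.const k b)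
    let κ := ResidueField (valAlg V hV)
    let : Algebra k V := inferInstanceAs (Algebra k (valAlg V hV))
    let : Algebra K V := inferInstanceAs (Algebra K (valAlg V hV))
    have : IsScalarTower k V (X.UnivField k) := inferInstanceAs (IsScalarTower k (valAlg V hV) _)
    have : IsScalarTower K V (X.UnivField k) := inferInstanceAs (IsScalarTower K (valAlg V hV) _)
    have : IsScalarTower K k V := inferInstanceAs (IsScalarTower K k (valAlg V hV))
    let r : V →ₐ[k] κ := IsScalarTower.toAlgHom k (valAlg V hV) κ
    have hr : Function.Surjective r := IsLocalRing.residue_surjective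
    have h := D.ht_redConst (F := F) r hr x (X.univPt k)
    rw [← h, ← D.ht_extPt (Ω := κ) (x + X.const F b), map_add]
    have h1 : X.redConst r (X.univPt k) = X.const κ b := hred.trans (X.map_const _ b)
    rw [h1, extPt, constPt, X.map_const, X.map_const]
  rw [key a, ← key 0, map_zero, add_zero]

end CartierData

end AbData

end Fermat.Agent.AbVar
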