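import Fermat.Agent.AbVar.Height.Rigidity
import Fermat.Agent.AbVar.Height.Parallelogram
import Fermat.Agent.AbVar.Height.TransInvariant
import Fermat.Agent.AbVar.Count.Main

/-!
# The height laws, and the number of torsion points
-/

set_option autoImplicit false

noncomputable section

universe u

open CategoryTheory CategoryTheory.Limits AlgebraicGeometry NeronModelInfra GoodReductionJacobian
open AlgebraicCurve IsLocalRing

namespace Fermat.Agent.AbVar

namespace AbData

variable {K : Type u} [Field K] [IsAlgClosed K] {X : AbData K}

namespace CartierData

variable (D : X.CartierData)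
variable (k F : Type u) [Field k] [IsAlgClosed k] [Algebra K k] [Field F] [Algebra k F]
  [Algebra K F] [IsScalarTower K k F] [FF.IsFunctionField k F]

/-- The parallelogram law of the heights. -/
theorem parallelogram : D.Parallelogram k F := fun _ _ _ hx hy =>
  D.ht_parallelogram_of_principal (Ω := AlgebraicClosure F) hx (D.exists_div_parallelogram hy)

end CartierData

variable (X) in
/-- An abelian variety of dimension `g` has `n ^ (2 * g)` rational `n`-torsion points. -/
theorem natCard_torsion {n : ℕ} (hn : (n : K) ≠ 0) :
    Nat.card (X.torsion n) = n ^ (2 * X.dim) := by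
  refine X.natCard_torsion_of_heightLaws ?_ ?_ hn
  · intro D k F _ _ _ _ _ _ _ _
    exact D.transInvariant k F
  · intro D k F _ _ _ _ _ _ _ _
    exact D.parallelogram k F

end AbData

end Fermat.Agent.AbVar
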