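import Fermat.Agent.FF.RiemannRoch

/-!
# Non-special effective divisors of degree the genus
-/

set_option autoImplicit false

noncomputable section

open AlgebraicCurve
open scoped Classical

namespace Fermat.Agent.AbVar

variable (k F : Type*) [Field k] [IsAlgClosed k] [Field F] [Algebra k F] [FF.IsFunctionField k F]

theorem infinite_place : Infinite (Place k F) := by
  obtain ⟨x, hx, -⟩ := FF.IsFunctionField.exists_finite (K := k) (F := F)
  have hne : ∀ c : k, x - algebraMap k F c ≠ 0 := fun c h =>
    hx (sub_eq_zero.mp h ▸ isAlgebraic_algebraMap c)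
  have hP : ∀ c : k, ∃ P : Place k F, 0 < P.ord (x - algebraMap k F c) := by
    intro c
    have ht : Transcendental k (x - algebraMap k F c)⁻¹ := by
      intro h
      exact hx (by simpa using (IsAlgebraic.inv_iff.mp h).add (isAlgebraic_algebraMap c))
    obtain ⟨P, hP⟩ := FF.exists_ord_neg_of_transcendental ht
    exact ⟨P, by rw [P.ord_inv] at hP; omega⟩
  choose P hP using hP
  refine Infinite.of_injective P fun c d hcd => ?_
  by_contra hne'
  have h1 := hP c
  have h2 := hP d
  rw [← hcd] at h2
  have h3 : (1 : ℤ) ≤ (P c).ord ((x - algebraMap k F d) - (x - algebraMap k F c)) := by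
    rw [sub_eq_add_neg]
    refine FF.le_ord_add _ ?_ h2 (by rw [FF.ord_neg]; exact h1)
    rw [← sub_eq_add_neg, sub_sub_sub_cancel_left, ← map_sub, map_ne_zero]
    exact sub_ne_zero.mpr hne'
  rw [sub_sub_sub_cancel_left, ← map_sub, FF.ord_algebraMap] at h3
  omega

variable {k F}

theorem exists_ell_add_single {D : Divisor k F} (_hD : 0 ≤ D) (hell : FF.ell k D = 1)
    (hdeg : Divisor.degree D < genusFF k F) :
    ∃ P : Place k F, FF.ell k (D + Finsupp.single P 1) = 1 := by
  by_contra hcon
  push Not at hcon
  have h2 : ∀ P : Place k F, 2 ≤ FF.ell k (D + Finsupp.single P 1) := fun P => by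
    have := FF.ell_mono (K := k) (FF.le_add_single (K := k) D P)
    have := hcon P
    omega
  have key : ∀ S : Finset (Place k F), 1 + (S.card : ℤ) ≤
      FF.ell k (D + ∑ P ∈ S, Finsupp.single P 1) := by
    intro S
    induction S using Finset.induction with
    | empty => simp [hell]
    | @insert P S hPS ih =>
      set E := D + ∑ Q ∈ S, Finsupp.single Q 1
      have hE : D + ∑ Q ∈ insert P S, Finsupp.single Q 1 = E + Finsupp.single P 1 := by
        rw [Finset.sum_insert hPS]; simp only [E]; abel
      rw [hE, Finset.card_insert_of_notMem hPS]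
      obtain ⟨f, hf, hfn⟩ : ∃ f ∈ riemannRochSpace (D + Finsupp.single P (1 : ℤ)),
          f ∉ riemannRochSpace D := by
        by_contra h
        push Not at h
        have h0 : Module.finrank k (riemannRochSpace (D + Finsupp.single P (1 : ℤ))) ≤
            Module.finrank k (riemannRochSpace D) := Submodule.finrank_mono h
        have := h2 P
        unfold FF.ell at hell this
        omega
      have hSnn : (0 : Divisor k F) ≤ ∑ Q ∈ S, Finsupp.single Q (1 : ℤ) :=
        Finset.sum_nonneg fun Q _ => Finsupp.single_nonneg.mpr one_pos.le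
      have hlt : riemannRochSpace E < riemannRochSpace (E + Finsupp.single P 1) := by
        refine lt_of_le_of_ne (FF.riemannRochSpace_mono (FF.le_add_single (K := k) E P)) fun heq => ?_
        have hfE : f ∈ riemannRochSpace (E + Finsupp.single P 1) :=
          FF.riemannRochSpace_mono (by
            gcongr
            exact le_add_of_nonneg_right hSnn) hf
        rw [← heq, mem_riemannRochSpace_iff] at hfE
        apply hfn
        rw [mem_riemannRochSpace_iff] at hf ⊢
        intro v
        by_cases hv : v = P
        · subst hv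
          have hEv : E v = D v := by
            simp [E, Finsupp.single_apply, hPS]
          simpa [hEv] using hfE v
        · simpa [Finsupp.single_apply, Ne.symm hv] using hf v
      have := Submodule.finrank_lt_finrank_of_lt hlt
      unfold FF.ell at ih ⊢
      push_cast
      omega
  obtain ⟨c, hc⟩ := FF.exists_ell_eq (K := k) (F := F)
  have := infinite_place k F
  obtain ⟨S, hS⟩ := Infinite.exists_subset_card_eq (Place k F) (c - Divisor.degree D).toNat
  have hdegS : Divisor.degree (D + ∑ P ∈ S, Finsupp.single P (1 : ℤ)) =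
      Divisor.degree D + S.card := by
    simp [FF.deg_eq_one]
  have h1 := key S
  have h3 := hc _ (by rw [hdegS, hS]; omega)
  rw [hdegS] at h3
  omega

variable (k F) in
/-- An effective divisor of degree the genus which moves in no pencil. -/
theorem exists_nonspecial :
    ∃ G : Divisor k F, 0 ≤ G ∧ Divisor.degree G = genusFF k F ∧ FF.ell k G = 1 := by
  suffices h : ∀ i : ℕ, i ≤ genusFF k F → ∃ G : Divisor k F,
      0 ≤ G ∧ Divisor.degree G = i ∧ FF.ell k G = 1 from h _ le_rfl
  intro i hi
  induction i with
  | zero => exact ⟨0, le_rfl, by simp, FF.ell_zero⟩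
  | succ i ih =>
    obtain ⟨G, hG, hdeg, hell⟩ := ih (Nat.le_of_succ_le hi)
    obtain ⟨P, hP⟩ := exists_ell_add_single hG hell (by rw [hdeg]; exact_mod_cast hi)
    refine ⟨G + Finsupp.single P 1, add_nonneg hG (Finsupp.single_nonneg.mpr one_pos.le), ?_, hP⟩
    simp [hdeg, FF.deg_eq_one]

/-- In a class of degree at least the genus there is an effective divisor. -/
theorem exists_effective_of_genus_le (D : Divisor k F) (hD : (genusFF k F : ℤ) ≤ Divisor.degree D) :
    ∃ f : F, f ≠ 0 ∧ 0 ≤ D + FF.div k f := by
  refine FF.exists_ne_zero_of_ell_pos (K := k) ?_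
  have := FF.riemann_inequality (K := k) D
  rw [FF.ell_zero] at this
  omega

omit [IsAlgClosed k] in
/-- A divisor linearly equivalent to `G` with `ell G = 1` and both effective equals `G`. -/
theorem eq_of_ell_eq_one {G : Divisor k F} (hG : 0 ≤ G) (hell : FF.ell k G = 1) {f : F}
    (_hf : f ≠ 0) (hE : 0 ≤ G + FF.div k f) : G + FF.div k f = G := by
  have hfm : f ∈ riemannRochSpace G := mem_riemannRochSpace_iff.mpr fun v => Or.inr (by
    have := Finsupp.le_def.mp hE v
    simp only [Finsupp.add_apply, FF.div_apply, Finsupp.zero_apply] at this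
    omega)
  have h1 : (1 : F) ∈ riemannRochSpace G := mem_riemannRochSpace_iff.mpr fun v => Or.inr (by
    have := Finsupp.le_def.mp hG v
    simp only [Finsupp.zero_apply] at this
    rw [v.ord_one]; omega)
  have hr : Module.finrank k (riemannRochSpace G) = 1 := by unfold FF.ell at hell; exact_mod_cast hell
  obtain ⟨c, hc⟩ := (finrank_eq_one_iff_of_nonzero' (⟨1, h1⟩ : riemannRochSpace G)
    fun h => one_ne_zero (congrArg Subtype.val h : (1 : F) = 0)).mp hr ⟨f, hfm⟩
  have hc' : c • (1 : F) = f := congrArg Subtype.val hc
  ext v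
  simp [← hc', Algebra.smul_def, FF.ord_algebraMap]

end Fermat.Agent.AbVar
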