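import Fermat.Agent.AbVar.Height.Spec
import Fermat.Agent.AbVar.Height.Extend
import Fermat.Agent.AbVar.Count.Quadratic

/-!
# The product formula for a function with prescribed pullback divisor

If on the constant extension to an algebraic closure of `F` the pullbacks of the translates of a
point by a tautological constant point form a principal divisor, comparing the values of the function
at the diagonal place and at the place of origin gives the parallelogram law of the heights.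
-/

set_option autoImplicit false

noncomputable section

universe u

open CategoryTheory CategoryTheory.Limits AlgebraicGeometry NeronModelInfra GoodReductionJacobian
open AlgebraicCurve IsLocalRing
open scoped Classical

namespace Fermat.Agent.AbVar

section HasVal

variable {K E : Type u} [Field K] [Field E] [Algebra K E] [FF.IsFunctionField K E] [IsAlgClosed K]

/-- An element with a given non-zero value at a place. -/
def HasVal (P : Place K E) (e : E) (v : K) : Prop :=
  e ∈ P.toValuationSubring ∧ valAt P e = v ∧ v ≠ 0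

theorem HasVal.mul {P : Place K E} {e e' : E} {v v' : K} (h : HasVal P e v) (h' : HasVal P e' v') :
    HasVal P (e * e') (v * v') :=
  ⟨mul_mem h.1 h'.1, by rw [valAt_mul P h.1 h'.1, h.2.1, h'.2.1], mul_ne_zero h.2.2 h'.2.2⟩

theorem HasVal.inv {P : Place K E} {e : E} {v : K} (h : HasVal P e v) : HasVal P e⁻¹ v⁻¹ := by
  obtain ⟨h1, h2⟩ := valAt_inv P h.1 (h.2.1.symm ▸ h.2.2)
  exact ⟨h1, by rw [h2, h.2.1], inv_ne_zero h.2.2⟩

omit [FF.IsFunctionField K E] [IsAlgClosed K] in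
theorem hasVal_algebraMap (P : Place K E) {c : K} (hc : c ≠ 0) : HasVal P (algebraMap K E c) c :=
  ⟨P.algebraMap_mem' c, valAt_algebraMap P c, hc⟩

end HasVal

namespace AbData

namespace CartierData

variable {K : Type u} [Field K] [IsAlgClosed K] {X : AbData K} (D : X.CartierData)
variable {k F Ω : Type u} [Field k] [IsAlgClosed k] [Algebra K k] [Field F] [Algebra k F]
  [Algebra K F] [IsScalarTower K k F] [FF.IsFunctionField k F] [Field Ω] [IsAlgClosed Ω]
  [Algebra k Ω] [Algebra K Ω] [IsScalarTower K k Ω]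

/-- The equation at the reduction, evaluated. -/
def placeVal (A : X.Pt (ConstExt k F Ω)) (Q : Place Ω (ConstExt k F Ω)) : ConstExt k F Ω :=
  D.locVal A (X.img (redPt X Q A))

omit [Algebra K k] [Algebra K F] [IsScalarTower K k F] [IsScalarTower K k Ω] in
/-- A change of equation has the value prescribed by the reduced point. -/
theorem hasVal_locVal_div (A : X.Pt (ConstExt k F Ω)) (Q : Place Ω (ConstExt k F Ω)) {z : X.A}
    (hz : X.img (redPt X Q A) ⤳ z) :
    HasVal Q (D.locVal A z / D.placeVal A Q) (D.locVal (redPt X Q A) z) := by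
  have hs := img_specializes_redPt Q X A
  obtain ⟨h1, h2⟩ := D.div_mem_of_specializes hz
  have h1' := X.loc_le_of_specializes hs h1
  rw [placeVal, D.locVal_eq_mul (hs.trans hz) hs h1', mul_div_cancel_right₀ _ (D.locVal_ne_zero hs)]
  obtain ⟨hm, hv⟩ := ev_redPt Q X A h1 h1'
  refine ⟨?_, ?_, D.locVal_ne_zero hz⟩
  · rw [X.val_eq h1']; exact hm
  · rw [X.val_eq h1', ← valHom_eq_valAt Q ⟨_, hm⟩, hv, ← X.val_eq]
    rfl

variable {V : ValuationSubring Ω} [Algebra k V] [IsScalarTower k V Ω] [Algebra K V]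
  [IsScalarTower K k V] [IsScalarTower K V Ω] {κ : Type u} [Field κ] [IsAlgClosed κ] [Algebra k κ]
  [Algebra K κ] [IsScalarTower K k κ]

/-- The data of Spec at one point and one reduced place. -/
theorem exists_gauss_locVal (r : V →ₐ[k] κ) (hr : Function.Surjective r) (x : X.Pt F) (a : X.Pt Ω) :
    ∃ e : ConstExt k F Ω, e ≠ 0 ∧ ∀ R : Place κ (ConstExt k F κ),
      ∃ g : (gauss (F := F) r : ValuationSubring (ConstExt k F Ω)), gaussRed r g ≠ 0 ∧
        (g : ConstExt k F Ω) * e = D.locVal (X.extPt k Ω x + X.constPt k F a)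
          (X.img (redPt X R (X.extPt k κ x + X.constPt k F (X.redConst r a)))) ∧
        ∀ P, AbVar.red r hr P = R →
          D.pull Ω (X.extPt k Ω x + X.constPt k F a) P = P.ord ((g : ConstExt k F Ω) * e) := by
  have := isLocalHom_gaussHom (K := K) (F := F) r hr
  have := isLocalHom_restrictScalars (K := K) r hr
  set y := X.extPt k Ω x + X.constPt k F a with hy
  set y' := X.extPt k κ x + X.constPt k F (X.redConst r a) with hy'
  have hred : _ = y' := (map_add _ _ _).trans (congrArg₂ (· + ·) (X.red_gaussHom_extPt r hr x)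
    (X.red_gaussHom_constPt r hr a))
  have hsy : X.img y ⤳ X.img y' := hred ▸ X.img_specializes_red _ y
  refine ⟨D.locVal y (X.img y'), D.locVal_ne_zero hsy, fun R => ?_⟩
  set w := X.img (redPt X R y') with hw
  have hsw : X.img y' ⤳ w := img_specializes_redPt R X y'
  obtain ⟨hh, hh'⟩ := D.div_mem_of_specializes hsw
  obtain ⟨c, hc, hc'⟩ := X.ev_red (gaussHom r hr) y (h := D.gen w / D.gen (X.img y'))
    (X.mem_loc_congr (congrArg X.img hred).symm hh) (X.loc_le_of_specializes hsy hh)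
  rw [X.ev_congr hred _ hh, ← X.val_eq] at hc'
  rw [← X.val_eq] at hc
  let g : gauss (F := F) r := ⟨(c : ConstExt k F Ω), c.2⟩
  have hgred : gaussRed r g = D.locVal y' w := hc'
  have hgval : (g : ConstExt k F Ω) = X.val y (D.gen w / D.gen (X.img y')) := hc.symm
  have hmul : (g : ConstExt k F Ω) * D.locVal y (X.img y') = D.locVal y w := by
    rw [hgval, ← D.locVal_eq_mul (hsy.trans hsw) hsy (X.loc_le_of_specializes hsy hh)]
  refine ⟨g, by rw [hgred]; exact D.locVal_ne_zero hsw, hmul, fun P hP => ?_⟩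
  subst hP
  have hs2 : X.img (redPt X P y) ⤳ w := by
    rw [hw, hy', X.redPt_red r hr P x a]
    exact X.img_specializes_red _ _
  obtain ⟨h1, h2⟩ := D.div_mem_of_specializes hs2
  rw [hmul, D.pull_apply_of_coherent y P w ((img_specializes_redPt P X y).trans hs2) h1 h2]

/-- A function with the divisor `Z`, normalised by the equations at a place. -/
def normalised (f : ConstExt k F Ω) (A₁ A₂ A₃ : X.Pt (ConstExt k F Ω))
    (Q : Place Ω (ConstExt k F Ω)) : Ω :=
  valAt Q (f / (D.placeVal A₁ Q * D.placeVal A₂ Q / D.placeVal A₃ Q ^ 2))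

/-- The equation at the reduction of a constant point, evaluated. -/
def redVal' (r : V →ₐ[k] κ) (b : X.Pt Ω) : Ω := D.locVal b (X.img (X.redConst r b))

/-- All normalised values differ from the local equations by one constant, up to units. -/
theorem exists_scale (r : V →ₐ[k] κ) (hr : Function.Surjective r) (x₁ x₂ x₃ : X.Pt F)
    (a₁ a₂ a₃ : X.Pt Ω) {f : ConstExt k F Ω} (hf0 : f ≠ 0)
    (hf : ∀ P, P.ord f = D.pull Ω (X.extPt k Ω x₁ + X.constPt k F a₁) P +
      D.pull Ω (X.extPt k Ω x₂ + X.constPt k F a₂) P -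
      2 * D.pull Ω (X.extPt k Ω x₃ + X.constPt k F a₃) P) :
    ∃ c : Ω, c ≠ 0 ∧ ∀ Q, ∃ u : V, IsUnit u ∧
      D.normalised f (X.extPt k Ω x₁ + X.constPt k F a₁) (X.extPt k Ω x₂ + X.constPt k F a₂)
        (X.extPt k Ω x₃ + X.constPt k F a₃) Q =
      c * (u : Ω) * (D.redVal' r (redPt X Q (X.extPt k Ω x₁ + X.constPt k F a₁)) *
        D.redVal' r (redPt X Q (X.extPt k Ω x₂ + X.constPt k F a₂)) /
        D.redVal' r (redPt X Q (X.extPt k Ω x₃ + X.constPt k F a₃)) ^ 2) := by
  obtain ⟨e₁, he₁, hg₁⟩ := D.exists_gauss_locVal r hr x₁ a₁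
  obtain ⟨e₂, he₂, hg₂⟩ := D.exists_gauss_locVal r hr x₂ a₂
  obtain ⟨e₃, he₃, hg₃⟩ := D.exists_gauss_locVal r hr x₃ a₃
  obtain ⟨c, hc, g₀, hg₀, hfg⟩ := exists_primitive r
    (e := f / (e₁ * e₂ / e₃ ^ 2)) (div_ne_zero hf0 (div_ne_zero (mul_ne_zero he₁ he₂)
      (pow_ne_zero 2 he₃)))
  have hc' : algebraMap Ω (ConstExt k F Ω) c ≠ 0 := (map_ne_zero _).mpr hc
  refine ⟨c, hc, fun Q => ?_⟩
  set R := AbVar.red r hr Q with hR
  set A₁ := X.extPt k Ω x₁ + X.constPt k F a₁
  set A₂ := X.extPt k Ω x₂ + X.constPt k F a₂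
  set A₃ := X.extPt k Ω x₃ + X.constPt k F a₃
  obtain ⟨g₁, hn₁, hm₁, hp₁⟩ := hg₁ R
  obtain ⟨g₂, hn₂, hm₂, hp₂⟩ := hg₂ R
  obtain ⟨g₃, hn₃, hm₃, hp₃⟩ := hg₃ R
  have hne : ∀ {g : (gauss (F := F) r : ValuationSubring (ConstExt k F Ω))}, gaussRed r g ≠ 0 →
      IsUnit g ∧ (g : ConstExt k F Ω) ≠ 0 := fun {g} hg => ⟨by
    by_contra hu
    exact hg ((gaussRed_eq_zero_iff r g).mpr ((mem_maximalIdeal _).mpr hu)),
    fun e => hg (by rw [show g = 0 from Subtype.ext e, map_zero])⟩
  obtain ⟨⟨v₁, rfl⟩, hz₁⟩ := hne hn₁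
  obtain ⟨⟨v₂, rfl⟩, hz₂⟩ := hne hn₂
  obtain ⟨-, hz₃⟩ := hne hn₃
  let G : (gauss (F := F) r : ValuationSubring (ConstExt k F Ω)) :=
    g₀ * g₃ * g₃ * ↑v₁⁻¹ * ↑v₂⁻¹
  have hGred : gaussRed r G ≠ 0 := by
    simp only [G, map_mul]
    refine mul_ne_zero (mul_ne_zero (mul_ne_zero (mul_ne_zero hg₀ hn₃) hn₃) ?_) ?_ <;>
      exact (Units.map (gaussRed r).toMonoidHom _).ne_zero
  have hGval : (G : ConstExt k F Ω) = f / algebraMap Ω (ConstExt k F Ω) c /
      (((v₁ : gauss (F := F) r) * e₁ : ConstExt k F Ω) * ((v₂ : gauss (F := F) r) * e₂) /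
        ((g₃ : ConstExt k F Ω) * e₃) ^ 2) := by
    have i : ∀ v : (gauss (F := F) r : ValuationSubring (ConstExt k F Ω))ˣ,
        (((v⁻¹ : _ˣ) : gauss (F := F) r) : ConstExt k F Ω) =
          ((v : gauss (F := F) r) : ConstExt k F Ω)⁻¹ := fun v => eq_inv_of_mul_eq_one_left (by
      rw [← MulMemClass.coe_mul, Units.inv_mul, OneMemClass.coe_one])
    have hf' : f = algebraMap Ω (ConstExt k F Ω) c * (g₀ : ConstExt k F Ω) * (e₁ * e₂ / e₃ ^ 2) :=
      (div_eq_iff (div_ne_zero (mul_ne_zero he₁ he₂) (pow_ne_zero 2 he₃))).mp hfg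
    simp only [G, MulMemClass.coe_mul, i, hf']
    field_simp
  have hGne : (G : ConstExt k F Ω) ≠ 0 := (hne hGred).2
  have hord : ∀ P, AbVar.red r hr P = R → P.ord (G : ConstExt k F Ω) = 0 := fun P hP => by
    have t₁ := mul_ne_zero hz₁ he₁
    have t₂ := mul_ne_zero hz₂ he₂
    have t₃ := pow_ne_zero 2 (mul_ne_zero hz₃ he₃)
    rw [hGval, FF.ord_div P (div_ne_zero hf0 hc') (div_ne_zero (mul_ne_zero t₁ t₂) t₃),
      FF.ord_div P hf0 hc', FF.ord_div P (mul_ne_zero t₁ t₂) t₃, P.ord_mul t₁ t₂, FF.ord_pow,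
      FF.ord_algebraMap, hf P, hp₁ P hP, hp₂ P hP, hp₃ P hP]
    push_cast
    ring
  obtain ⟨ha, -, -, hu⟩ := valAt_isUnit_of_ord_eq_zero hr G hGred Q hord
  have hGQ : HasVal Q (G : ConstExt k F Ω) (valAt Q (G : ConstExt k F Ω)) :=
    ⟨(FF.mem_iff Q).mpr (Or.inr (hord Q rfl).ge), rfl, fun h => by
      refine hu.ne_zero (Subtype.ext h)⟩
  have hs : ∀ (x : X.Pt F) (a : X.Pt Ω),
      X.img (redPt X Q (X.extPt k Ω x + X.constPt k F a)) ⤳
        X.img (redPt X R (X.extPt k κ x + X.constPt k F (X.redConst r a))) := fun x a => by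
    have := isLocalHom_restrictScalars (K := K) r hr
    rw [hR, X.redPt_red r hr Q x a]
    exact X.img_specializes_red _ _
  have q₁ := D.hasVal_locVal_div A₁ Q (hs x₁ a₁)
  have q₂ := D.hasVal_locVal_div A₂ Q (hs x₂ a₂)
  have q₃ := D.hasVal_locVal_div A₃ Q (hs x₃ a₃)
  rw [← hm₁, X.redPt_red r hr Q x₁ a₁] at q₁
  rw [← hm₂, X.redPt_red r hr Q x₂ a₂] at q₂
  rw [← hm₃, X.redPt_red r hr Q x₃ a₃] at q₃
  have hall := ((hasVal_algebraMap Q hc).mul hGQ).mul ((q₁.mul q₂).mul (q₃.mul q₃).inv)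
  refine ⟨⟨_, ha⟩, hu, ?_⟩
  unfold normalised redVal'
  refine Eq.trans (congrArg (valAt Q) ?_) (hall.2.1.trans ?_)
  · rw [hGval]
    have p : ∀ A, D.placeVal A Q ≠ 0 := fun A => D.locVal_ne_zero (img_specializes_redPt Q X A)
    have := p A₁
    have := p A₂
    have := p A₃
    field_simp
  · rw [div_eq_mul_inv, pow_two]

end CartierData

end AbData

end Fermat.Agent.AbVar
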