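import Fermat.Agent.AbVar.Height.Place
import Fermat.Agent.AbVar.Height.Val
import Fermat.Agent.CurveTorsion.ValRing

/-!
# A universal point and its specialisations
-/

set_option autoImplicit false

noncomputable section

universe u

open CategoryTheory CategoryTheory.Limits AlgebraicGeometry NeronModelInfra GoodReductionJacobian
open IsLocalRing
open scoped TensorProduct

namespace Fermat.Agent.AbVar

section Residue

variable {k Ω : Type u} [Field k] [Field Ω] [Algebra k Ω] (V : ValuationSubring Ω)
  (hV : ∀ c, algebraMap k Ω c ∈ V)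

instance [IsAlgClosed Ω] : IsAlgClosed (ResidueField (valAlg V hV)) :=
  CurveTorsion.isAlgClosed_residueField V

/-- An element in every valuation ring over an algebraically closed subfield lies in the subfield. -/
theorem exists_algebraMap_of_forall_mem [IsAlgClosed k] {u : Ω}
    (h : ∀ V : ValuationSubring Ω, (∀ c, algebraMap k Ω c ∈ V) → u ∈ V) :
    ∃ c, algebraMap k Ω c = u := by
  have h1 : u ∈ (⨅ V : {V : ValuationSubring Ω // Set.range (algebraMap k Ω) ⊆ V.toSubring},
      V.1.toSubring) := Subring.mem_iInf.mpr fun V => h V.1 fun c => V.2 ⟨c, rfl⟩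
  rw [iInf_valuationSubring_superset] at h1
  have h2 : IsIntegral (Subring.closure (Set.range (algebraMap k Ω))) u := h1
  have h3 : IsIntegral k u := by
    obtain ⟨p, hp, hp'⟩ := h2
    have hlift : p.map (algebraMap (Subring.closure (Set.range (algebraMap k Ω))) Ω) ∈
        Polynomial.lifts (algebraMap k Ω) := by
      rw [Polynomial.lifts_iff_coeff_lifts]
      intro n
      rw [Polynomial.coeff_map]
      have hle : Subring.closure (Set.range (algebraMap k Ω)) ≤ (algebraMap k Ω).range :=
        Subring.closure_le.mpr fun _ hx => hx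
      exact hle (p.coeff n).2
    obtain ⟨q, hq, -, hqm⟩ :=
      Polynomial.lifts_and_degree_eq_and_monic hlift (hp.map _)
    refine ⟨q, hqm, ?_⟩
    rw [← Polynomial.eval_map, hq, Polynomial.eval_map]
    exact hp'
  obtain ⟨⟨c, hc⟩⟩ : Nonempty {c // algebraMap k Ω c = u} := by
    have hirr := minpoly.irreducible h3
    have hdeg := IsAlgClosed.degree_eq_one_of_irreducible k hirr
    obtain ⟨c, hc⟩ := minpoly.degree_eq_one_iff.mp hdeg
    exact ⟨⟨c, hc⟩⟩
  exact ⟨c, hc⟩

end Residue

namespace AbData

variable {K : Type u} [Field K] [IsAlgClosed K] (X : AbData K)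
variable (k : Type u) [Field k] [Algebra K k] [IsDomain (k ⊗[K] X.Fun)]

/-- The field of definition of the universal point. -/
abbrev UnivField : Type u := AlgebraicClosure (FractionRing (k ⊗[K] X.Fun))

/-- The inclusion of the functions into the field of the universal point. -/
def univHom : X.Fun →ₐ[K] X.UnivField k :=
  ((IsScalarTower.toAlgHom k (k ⊗[K] X.Fun) (X.UnivField k)).restrictScalars K).comp
    Algebra.TensorProduct.includeRight

/-- The universal point. -/
def univPt : X.Pt (X.UnivField k) := X.map (X.univHom k) X.genPt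

variable {k}

/-- The universal point specialises to every point. -/
theorem exists_specialise (a : X.Pt k) :
    ∃ (V : ValuationSubring (X.UnivField k)) (hV : ∀ c, algebraMap k _ c ∈ V),
      X.red (IsScalarTower.toAlgHom K (valAlg V hV) (ResidueField (valAlg V hV))) (X.univPt k) =
        X.map (IsScalarTower.toAlgHom K k (ResidueField (valAlg V hV))) a := by
  set z := X.img a
  let T := k ⊗[K] X.loc z
  let j : T →ₐ[k] X.UnivField k :=
    (IsScalarTower.toAlgHom k (k ⊗[K] X.Fun) (X.UnivField k)).comp
      (Algebra.TensorProduct.map (AlgHom.id k k) (X.loc z).val)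
  have hj : Function.Injective j := by
    have hinj : Function.Injective (algebraMap (k ⊗[K] X.Fun) (X.UnivField k)) := by
      have h := ((algebraMap (FractionRing (k ⊗[K] X.Fun)) (X.UnivField k)).injective).comp
        (IsFractionRing.injective (k ⊗[K] X.Fun) (FractionRing (k ⊗[K] X.Fun)))
      rwa [← RingHom.coe_comp, ← IsScalarTower.algebraMap_eq] at h
    refine hinj.comp ?_
    exact Module.Flat.lTensor_preserves_injective_linearMap (X.loc z).val.toLinearMap
      Subtype.val_injective
  have : IsDomain T := hj.isDomain (f := j.toRingHom)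
  let e : T →ₐ[k] k := Algebra.TensorProduct.lift (AlgHom.id k k) (X.ev a) fun _ _ => Commute.all _ _
  have he : Function.Surjective e := fun c => ⟨algebraMap k T c, e.commutes c⟩
  let P := RingHom.ker e.toRingHom
  have : P.IsPrime := RingHom.ker_isPrime _
  let f : Localization.AtPrime P →+* X.UnivField k :=
    IsLocalization.lift (M := P.primeCompl) (g := j.toRingHom) fun y => by
      refine isUnit_iff_ne_zero.mpr fun h => y.2 ?_
      rw [show (y : T) = 0 from hj (h.trans (map_zero j).symm)]
      exact P.zero_mem
  obtain ⟨V, hmem, hloc⟩ := IsLocalRing.exists_factor_valuationRing (R := Localization.AtPrime P) f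
  have hf : ∀ t : T, f (algebraMap T _ t) = j t := fun t => IsLocalization.lift_eq _ t
  have hV : ∀ c, algebraMap k (X.UnivField k) c ∈ V := fun c => by
    have h := hmem (algebraMap T _ (algebraMap k T c))
    rw [hf, j.commutes] at h
    exact h
  refine ⟨V, hV, ?_⟩
  let jV : T →ₐ[k] valAlg V hV :=
    j.codRestrict _ fun t => by rw [mem_valAlg, ← hf]; exact hmem _
  have hres : ∀ t, IsLocalRing.residue (valAlg V hV) (jV t) = algebraMap k _ (e t) := by
    intro t
    have hP : t - algebraMap k T (e t) ∈ P := by
      show e (t - algebraMap k T (e t)) = 0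
      rw [map_sub, AlgHom.commutes]; exact sub_self _
    have h1 : algebraMap T (Localization.AtPrime P) (t - algebraMap k T (e t)) ∈
        maximalIdeal (Localization.AtPrime P) :=
      (IsLocalization.AtPrime.to_map_mem_maximal_iff _ P _).mpr hP
    have h2 : ¬ IsUnit (jV (t - algebraMap k T (e t))) := by
      intro hu
      refine (mem_nonunits_iff.mp h1) ((isUnit_map_iff (f.codRestrict V.toSubring hmem) _).mp ?_)
      have heq : (f.codRestrict V.toSubring hmem) (algebraMap T _ (t - algebraMap k T (e t))) =
          (show V.toSubring from ⟨_, (jV (t - algebraMap k T (e t))).2⟩) := Subtype.ext (hf _)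
      rw [heq]
      exact hu
    have h3 : IsLocalRing.residue (valAlg V hV) (jV (t - algebraMap k T (e t))) = 0 :=
      (IsLocalRing.residue_eq_zero_iff _).mpr h2
    rw [map_sub, map_sub, AlgHom.commutes, sub_eq_zero] at h3
    exact h3
  let ψ : X.loc z →ₐ[K] valAlg V hV :=
    (jV.restrictScalars K).comp Algebra.TensorProduct.includeRight
  have hu : X.univPt k =
      X.map ((IsScalarTower.toAlgHom K (valAlg V hV) (X.UnivField k)).comp ψ) (X.locPt z) := by
    rw [univPt, ← X.map_val_locPt z, X.map_map]
    rfl
  rw [hu, X.red_map]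
  conv_rhs => rw [← X.eq_map_locPt a, X.map_map]
  refine X.map_congr (fun h => ?_) _
  refine (hres _).trans ?_
  refine congrArg (algebraMap k _) ?_
  show e (1 ⊗ₜ[K] h) = X.ev a h
  rw [show e (1 ⊗ₜ[K] h) = AlgHom.id k k 1 * X.ev a h from Algebra.TensorProduct.lift_tmul _ _ _ _ _,
    map_one, one_mul]

end AbData

end Fermat.Agent.AbVar
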