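import Fermat.Agent.AbVar.Height.RigidityTools
import Fermat.Agent.AbVar.Height.Extend
import Fermat.Agent.AbVar.Height.Specialise

/-!
# Rigidity of the four term combination of pullbacks

For `x, y : A(F)` with `y(o) = 0` and `η` the point `y` over an algebraic closure `L` of `F`, the
divisor class of `(x + η)^* D + (x - η)^* D - 2 x^* D` on the curve over `L` is trivial.
-/

set_option autoImplicit false

noncomputable section

universe u

open CategoryTheory CategoryTheory.Limits AlgebraicGeometry NeronModelInfra GoodReductionJacobian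
open AlgebraicCurve IsLocalRing
open scoped Classical

namespace Fermat.Agent.AbVar

namespace AbData

variable {K : Type u} [Field K] [IsAlgClosed K] {X : AbData K}
variable {k F : Type u} [Field k] [IsAlgClosed k] [Algebra K k] [Field F] [Algebra k F]
  [Algebra K F] [IsScalarTower K k F] [FF.IsFunctionField k F]

namespace CartierData

variable (D : X.CartierData)

section Step

variable {Ω : Type u} [Field Ω] [IsAlgClosed Ω] [Algebra k Ω] [Algebra K Ω] [IsScalarTower K k Ω]
variable {V : ValuationSubring Ω} [Algebra k V] [IsScalarTower k V Ω] [Algebra K V]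
  [IsScalarTower K k V] [IsScalarTower K V Ω] {κ : Type u} [Field κ] [IsAlgClosed κ] [Algebra k κ]
  [Algebra K κ] [IsScalarTower K k κ]

theorem mapDomain_red_sub_mem (r : V →ₐ[k] κ) (hr : Function.Surjective r) {G : Divisor k F}
    (x : X.Pt F) {b₁ b₂ : X.Pt Ω} {E : Divisor Ω (ConstExt k F Ω)}
    (h : E - baseDiv G - D.fourTerm x b₁ b₂ ∈
      Divisor.principal (K := Ω) (F := ConstExt k F Ω)) :
    Finsupp.mapDomain (AbVar.red r hr) E - baseDiv G -
        D.fourTerm x (X.redConst r b₁) (X.redConst r b₂) ∈
      Divisor.principal (K := κ) (F := ConstExt k F κ) := by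
  have h1 := mapDomain_red_principal r hr h
  change Finsupp.mapDomain.addMonoidHom (AbVar.red r hr) _ ∈ _ at h1
  rw [map_sub, map_sub] at h1
  change Finsupp.mapDomain (AbVar.red r hr) E - Finsupp.mapDomain (AbVar.red r hr) (baseDiv G) -
    Finsupp.mapDomain (AbVar.red r hr) (D.fourTerm x b₁ b₂) ∈ _ at h1
  rw [mapDomain_red_baseDiv] at h1
  have h2 := add_mem h1 (D.mapDomain_red_fourTerm_sub_mem r hr x b₁ b₂)
  convert h2 using 1
  abel

theorem mapDomain_red_eq_baseDiv (r : V →ₐ[k] κ) (hr : Function.Surjective r) {G : Divisor k F}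
    (hG : 0 ≤ G) (hell : FF.ell k G = 1) (x : X.Pt F) {b₁ b₂ : X.Pt Ω}
    {E : Divisor Ω (ConstExt k F Ω)} (hE : 0 ≤ E)
    (h : E - baseDiv G - D.fourTerm x b₁ b₂ ∈
      Divisor.principal (K := Ω) (F := ConstExt k F Ω))
    (h0 : D.fourTerm (k := k) x (X.redConst r b₁) (X.redConst r b₂) = 0) :
    Finsupp.mapDomain (AbVar.red r hr) E = baseDiv G := by
  have h1 := D.mapDomain_red_sub_mem r hr x h
  rw [h0, sub_zero] at h1
  exact eq_baseDiv_of_sub_mem hG hell (mapDomain_nonneg' _ hE) h1

end Step

/-- Functions regular on `G` are regular on divisors specialising to `G`. -/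
theorem incl_mem_of_effective {κ : Type u} [Field κ] [IsAlgClosed κ] [Algebra k κ] [Algebra K κ]
    [IsScalarTower K k κ] {G : Divisor k F} (hG : 0 ≤ G) (hell : FF.ell k G = 1) (x : X.Pt F)
    {o : Place k F} {y : X.Pt F} (hy : redPt X o y = 0) (φ : F →ₐ[K] κ)
    (hφ : ∀ c, φ (algebraMap k F c) = algebraMap k κ c) (b : X.Pt κ)
    {E : Divisor κ (ConstExt k F κ)} (hE : 0 ≤ E)
    (h : E - baseDiv G - D.fourTerm x b (X.map φ y) ∈
      Divisor.principal (K := κ) (F := ConstExt k F κ))
    {u : F} (hu : ∀ v ∈ G.support, u ∈ v.toValuationSubring) (P : Place κ (ConstExt k F κ))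
    (hP : E P ≠ 0) : incl k F κ u ∈ P.toValuationSubring := by
  obtain ⟨V, hmem, hloc⟩ := IsLocalRing.exists_factor_valuationRing
    (φ.toRingHom.comp (placeAlg K o).val.toRingHom)
  have hVk : ∀ c, algebraMap k κ c ∈ V := fun c =>
    hφ c ▸ hmem ⟨algebraMap k F c, o.algebraMap_mem' c⟩
  have hVK : ∀ c, algebraMap K κ c ∈ V := fun c => by
    rw [IsScalarTower.algebraMap_apply K k κ]; exact hVk _
  let : Algebra k V := subringAlgebra V hVk
  let : Algebra K V := subringAlgebra V hVK
  have : IsScalarTower k V κ := IsScalarTower.of_algebraMap_eq fun _ => rfl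
  have : IsScalarTower K V κ := IsScalarTower.of_algebraMap_eq fun _ => rfl
  have : IsScalarTower K k V := IsScalarTower.of_algebraMap_eq fun c =>
    Subtype.ext (IsScalarTower.algebraMap_apply K k κ c)
  have : IsAlgClosed (ResidueField V) := residueField_isAlgClosed' V
  let r : V →ₐ[k] ResidueField V := IsScalarTower.toAlgHom k V _
  have hr : Function.Surjective r := IsLocalRing.residue_surjective
  have hy0 : X.redConst r (X.map φ y) = 0 := by
    rw [← X.map_extend (V := placeAlg K o) y, X.map_map,
      redConst_map r (φ.comp (IsScalarTower.toAlgHom K (placeAlg K o) F)) (fun w => hmem w)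
        ((IsScalarTower.toAlgHom K k (ResidueField V)).comp (valHom K o)) (fun w => ?_),
      ← X.map_map]
    · rw [show X.map (valHom K o) (X.extend (placeAlg K o) y) = 0 from hy, map_zero]
    · let d : placeAlg K o := w - ⟨algebraMap k F (valHom K o w), o.algebraMap_mem' _⟩
      have hd : ¬ IsUnit d := fun hu' =>
        (ValuationSubring.coe_mem_nonunits_iff (A := o.toValuationSubring)
          (a := ⟨_, d.2⟩)).mp ((valHom_eq_iff o w _).mp rfl) hu'
      have h0 : IsLocalRing.residue V ⟨φ (d : F), hmem d⟩ = 0 := by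
        rw [IsLocalRing.residue_eq_zero_iff, mem_maximalIdeal, mem_nonunits_iff]
        exact fun hu' => hd ((isUnit_map_iff
          ((φ.toRingHom.comp (placeAlg K o).val.toRingHom).codRestrict V.toSubring hmem) d).mp hu')
      rw [show (⟨φ (d : F), hmem d⟩ : V) =
          (⟨φ (w : F), hmem w⟩ : V) - algebraMap k V (valHom K o w) from Subtype.ext (by
            show φ ((w : F) - algebraMap k F (valHom K o w)) = φ (w : F) - algebraMap k κ _
            rw [map_sub, hφ]), map_sub, sub_eq_zero] at h0
      exact h0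
  have hred := D.mapDomain_red_eq_baseDiv r hr hG hell x hE h
    (by rw [hy0, fourTerm_zero_right])
  have hpos := mapDomain_pos (AbVar.red r hr) hE hP
  rw [hred] at hpos
  obtain ⟨q, hq, hPq⟩ := exists_of_baseDiv_ne_zero hpos.ne'
  exact ((mem_red_iff hr P u).mp (hPq ▸ (incl_mem_liftPlace q u).mpr (hu q hq))).1

variable {L : Type u} [Field L] [IsAlgClosed L] [Algebra k L] [Algebra F L] [Algebra K L]
  [IsScalarTower k F L] [IsScalarTower K F L] [IsScalarTower K k L]

/-- The rigidity statement: the combination is principal over the algebraic closure. -/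
theorem exists_div_parallelogram {x y : X.Pt F} {o : Place k F} (hy : redPt X o y = 0) :
    D.pull L (X.extPt k L x + X.constPt k F (X.map (IsScalarTower.toAlgHom K F L) y)) +
        D.pull L (X.extPt k L x - X.constPt k F (X.map (IsScalarTower.toAlgHom K F L) y)) -
        2 • D.pull L (X.extPt k L x) ∈
      Divisor.principal (K := L) (F := ConstExt k F L) := by
  set η := X.map (IsScalarTower.toAlgHom K F L) y with hη
  let M := AlgebraicClosure (ConstExt k F L)
  let ιθ : F →ₐ[K] M := (IsScalarTower.toAlgHom K (ConstExt k F L) M).comp (inclK K k F L)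
  let ιη : F →ₐ[K] M := (IsScalarTower.toAlgHom K L M).comp (IsScalarTower.toAlgHom K F L)
  set θ := X.map ιθ y with hθ
  set ηM := X.map ιη y with hηM
  have hηM' : ηM = X.map (IsScalarTower.toAlgHom K L M) η := (X.map_map _ _ y).symm
  -- the effective divisor equivalent to `G` plus the combination
  obtain ⟨G, hG, hGdeg, hell⟩ := exists_nonspecial k F
  set Ψ := D.fourTerm (k := k) x θ ηM with hΨ
  -- a valuation specialising `θ` to `0`
  obtain ⟨V₁, hiff₁, hnon₁, hres₁⟩ :=
    exists_extension (N := M) (liftPlace o : Place L (ConstExt k F L))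
  have hL₁ : ∀ c, algebraMap L M c ∈ V₁ :=
    algebraMap_mem_of_place_le (liftPlace o) fun f hf => (hiff₁ f).mpr hf
  have hk₁ : ∀ c, algebraMap k M c ∈ V₁ := fun c => by
    rw [IsScalarTower.algebraMap_apply k L M]; exact hL₁ _
  have hK₁ : ∀ c, algebraMap K M c ∈ V₁ := fun c => by
    rw [IsScalarTower.algebraMap_apply K L M]; exact hL₁ _
  let : Algebra L V₁ := subringAlgebra V₁ hL₁
  let : Algebra k V₁ := subringAlgebra V₁ hk₁
  let : Algebra K V₁ := subringAlgebra V₁ hK₁
  have : IsScalarTower L V₁ M := IsScalarTower.of_algebraMap_eq fun _ => rfl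
  have : IsScalarTower k V₁ M := IsScalarTower.of_algebraMap_eq fun _ => rfl
  have : IsScalarTower K V₁ M := IsScalarTower.of_algebraMap_eq fun _ => rfl
  have : IsScalarTower k L V₁ := IsScalarTower.of_algebraMap_eq fun c =>
    Subtype.ext (IsScalarTower.algebraMap_apply k L M c)
  have : IsScalarTower K k V₁ := IsScalarTower.of_algebraMap_eq fun c =>
    Subtype.ext (IsScalarTower.algebraMap_apply K k M c)
  let r₁ : V₁ →ₐ[k] L := (constResidue V₁ hres₁).restrictScalars k
  have hr₁ : Function.Surjective r₁ := surjective_constResidue V₁ hres₁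
  have hr₁L : ∀ c : L, r₁ ⟨_, hL₁ c⟩ = c := fun c => (constResidue V₁ hres₁).commutes c
  have hη₁ : X.redConst r₁ ηM = η := by
    rw [hηM', redConst_map r₁ (IsScalarTower.toAlgHom K L M) hL₁ (AlgHom.id K L) (fun c => hr₁L c),
      X.map_id]
  have hθ₁ : X.redConst r₁ θ = 0 := by
    have hφ : ∀ w : placeAlg K o, (ιθ.comp (IsScalarTower.toAlgHom K (placeAlg K o) F)) w ∈ V₁ :=
      fun w => (hiff₁ _).mpr ((incl_mem_liftPlace o _).mpr w.2)
    rw [hθ, ← X.map_extend (V := placeAlg K o) y, X.map_map,
      redConst_map r₁ _ hφ ((IsScalarTower.toAlgHom K k L).comp (valHom K o)) (fun w => ?_),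
      ← X.map_map]
    · rw [show X.map (valHom K o) (X.extend (placeAlg K o) y) = 0 from hy, map_zero]
    · refine (constResidue_eq_iff V₁ hres₁ _ _).mpr ?_
      show algebraMap (ConstExt k F L) M (incl k F L (w : F)) -
        algebraMap L M (algebraMap k L (valHom K o w)) ∈ V₁.nonunits
      rw [IsScalarTower.algebraMap_apply L (ConstExt k F L) M, ← map_sub]
      refine hnon₁ _ ?_
      have h1 := (valHom_eq_iff o w (valHom K o w)).mp rfl
      obtain ⟨h2, h3⟩ := ValuationSubring.mem_nonunits_iff_exists_mem_maximalIdeal.mp h1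
      have h4 := incl_sub_mem_liftPlace (Ω := L) (Q := o) ((FF.residue_eq_zero_iff o
        (a := ⟨_, h2⟩)).mp ((IsLocalRing.residue_eq_zero_iff _).mpr h3))
      have h5 := (FF.residue_eq_zero_iff (liftPlace o : Place L (ConstExt k F L))
        (a := ⟨_, mem_of_mem_ordGe_one h4⟩)).mpr h4
      exact ValuationSubring.coe_mem_nonunits_iff.mpr ((IsLocalRing.residue_eq_zero_iff _).mp h5)
  have h1zero : D.fourTerm (k := k) x (X.redConst r₁ θ) (X.redConst r₁ ηM) = 0 := by
    rw [hθ₁, hη₁, fourTerm_zero_left]
  have hdeg : Divisor.degree Ψ = 0 := by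
    have h := D.mapDomain_red_fourTerm_sub_mem r₁ hr₁ x θ ηM
    rw [h1zero, sub_zero] at h
    obtain ⟨f, hf, hDf⟩ := Divisor.mem_principal.mp h
    rw [← degree_mapDomain_red hr₁ Ψ, show Finsupp.mapDomain (AbVar.red r₁ hr₁) Ψ =
      FF.div L f from by ext v; rw [hDf v, FF.div_apply], FF.degree_div]
  obtain ⟨f, hf, hE⟩ := exists_effective_of_genus_le (baseDiv G + Ψ)
    (by rw [map_add, degree_baseDiv, hdeg, add_zero, hGdeg, genusFF_constExt])
  set E := baseDiv G + Ψ + FF.div M f with hEdef
  have hEmem : E - baseDiv G - Ψ ∈ Divisor.principal (K := M) (F := ConstExt k F M) := by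
    rw [show E - baseDiv G - Ψ = FF.div M f by rw [hEdef]; abel]
    exact ⟨f, hf, fun v => rfl⟩
  have hred₁ := D.mapDomain_red_eq_baseDiv r₁ hr₁ hG hell x hE hEmem h1zero
  -- values of functions regular on `G`
  have hval : ∀ P, E P ≠ 0 → ∀ u : F, (∀ v ∈ G.support, u ∈ v.toValuationSubring) →
      incl k F M u ∈ P.toValuationSubring ∧ ∃ c : L, algebraMap L M c = valAt P (incl k F M u) := by
    intro P hP u hu
    have hpos := mapDomain_pos (AbVar.red r₁ hr₁) hE hP
    rw [hred₁] at hpos
    obtain ⟨q, hq, hPq⟩ := exists_of_baseDiv_ne_zero hpos.ne'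
    refine ⟨((mem_red_iff hr₁ P u).mp (hPq ▸ (incl_mem_liftPlace q u).mpr (hu q hq))).1,
      exists_algebraMap_of_forall_mem fun W hW => ?_⟩
    have hWk : ∀ c, algebraMap k M c ∈ W := fun c => by
      rw [IsScalarTower.algebraMap_apply k L M]; exact hW _
    have hWK : ∀ c, algebraMap K M c ∈ W := fun c => by
      rw [IsScalarTower.algebraMap_apply K L M]; exact hW _
    let : Algebra L W := subringAlgebra W hW
    let : Algebra k W := subringAlgebra W hWk
    let : Algebra K W := subringAlgebra W hWK
    have : IsScalarTower k W M := IsScalarTower.of_algebraMap_eq fun _ => rfl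
    have : IsScalarTower K W M := IsScalarTower.of_algebraMap_eq fun _ => rfl
    have : IsScalarTower K k W := IsScalarTower.of_algebraMap_eq fun c =>
      Subtype.ext (IsScalarTower.algebraMap_apply K k M c)
    have : IsScalarTower K L W := IsScalarTower.of_algebraMap_eq fun c =>
      Subtype.ext (IsScalarTower.algebraMap_apply K L M c)
    have : IsScalarTower k L W := IsScalarTower.of_algebraMap_eq fun c =>
      Subtype.ext (IsScalarTower.algebraMap_apply k L M c)
    have : IsAlgClosed (ResidueField W) := residueField_isAlgClosed' W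
    let r : W →ₐ[k] ResidueField W := IsScalarTower.toAlgHom k W _
    have hr : Function.Surjective r := IsLocalRing.residue_surjective
    let φ : F →ₐ[K] ResidueField W :=
      (IsScalarTower.toAlgHom K L (ResidueField W)).comp (IsScalarTower.toAlgHom K F L)
    have hφ : ∀ c, φ (algebraMap k F c) = algebraMap k (ResidueField W) c := fun c => by
      show algebraMap L (ResidueField W) (algebraMap F L (algebraMap k F c)) = _
      rw [← IsScalarTower.algebraMap_apply k F L, ← IsScalarTower.algebraMap_apply]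
    have hηW : X.redConst r ηM = X.map φ y := by
      rw [hηM', redConst_map r (IsScalarTower.toAlgHom K L M) hW
        (IsScalarTower.toAlgHom K L (ResidueField W)) (fun c => rfl), hη, X.map_map]
    have hW1 := D.mapDomain_red_sub_mem r hr x hEmem
    rw [hηW] at hW1
    have hne := mapDomain_pos (AbVar.red r hr) hE hP
    have h := D.incl_mem_of_effective hG hell x hy φ hφ _ (mapDomain_nonneg' _ hE) hW1 hu _ hne.ne'
    exact ((mem_red_iff hr P u).mp h).2
  -- hence every place of `E` comes from `G`
  have hEG : E = baseDiv G := by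
    have hlift : ∀ P, E P ≠ 0 → ∃ q : Place k F, P = liftPlace q := by
      intro P hP
      have hpos := mapDomain_pos (AbVar.red r₁ hr₁) hE hP
      rw [hred₁] at hpos
      obtain ⟨q, hq, hPq⟩ := exists_of_baseDiv_ne_zero hpos.ne'
      refine ⟨q, eq_liftPlace_of_values P G.support hq fun u hu => ?_⟩
      obtain ⟨hm, c, hc⟩ := hval P hP u hu
      refine ⟨hm, ?_⟩
      have hin : valAt P (incl k F M u) ∈ V₁ := hc ▸ hL₁ c
      have h := valAt_red hr₁ P hm hin
      rw [hPq, valAt_incl_liftPlace q (hu q hq),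
        show (⟨valAt P (incl k F M u), hin⟩ : V₁) = ⟨_, hL₁ c⟩ from Subtype.ext hc.symm,
        hr₁L] at h
      rw [← hc, ← h, ← IsScalarTower.algebraMap_apply]
    ext P
    by_cases hP : ∃ q : Place k F, P = liftPlace q
    · obtain ⟨q, rfl⟩ := hP
      rw [baseDiv_liftPlace, ← baseDiv_liftPlace (Ω := L) G q, ← hred₁,
        mapDomain_apply_congr (AbVar.red r₁ hr₁) E
          (Finsupp.single (liftPlace q) (E (liftPlace q))) (fun P' hP' => ?_),
        Finsupp.mapDomain_single, red_liftPlace, Finsupp.single_eq_same]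
      by_cases h0 : P' = liftPlace q
      · subst h0; rw [Finsupp.single_eq_same]
      · rw [Finsupp.single_eq_of_ne h0]
        by_contra hne
        obtain ⟨q', rfl⟩ := hlift P' hne
        rw [red_liftPlace] at hP'
        exact h0 (congrArg liftPlace (liftPlace_injective hP'))
    · rw [baseDiv_apply_of_forall_ne G fun q hq => hP ⟨q, hq⟩]
      by_contra hne
      exact hP (hlift P hne)
  have hΨmem : Ψ ∈ Divisor.principal (K := M) (F := ConstExt k F M) := by
    rw [hEG] at hEmem
    simpa using neg_mem hEmem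
  -- the diagonal place, and a valuation specialising `θ` to `η`
  obtain ⟨PΔ, hPΔ⟩ := exists_place_of_hom (Ω := L) (⊤ : ValuationSubring F)
    (fun c => ValuationSubring.mem_top _) ((algebraMap F L).comp (⊤ : ValuationSubring F).subtype)
    (fun c => (IsScalarTower.algebraMap_apply k F L c).symm) (fun w => by
      constructor
      · intro h
        have h : algebraMap F L (w : F) = 0 := h
        have hw : w = 0 := Subtype.ext ((map_eq_zero (algebraMap F L)).mp h)
        rw [hw]; exact zero_mem _
      · intro h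
        by_contra hne
        refine (mem_maximalIdeal _).mp h (isUnit_iff_exists_inv.mpr
          ⟨⟨(w : F)⁻¹, ValuationSubring.mem_top _⟩, Subtype.ext (mul_inv_cancel₀ ?_)⟩)
        intro hw
        exact hne (by show algebraMap F L (w : F) = 0; rw [hw, map_zero]))
  obtain ⟨V₂, hiff₂, hnon₂, hres₂⟩ := exists_extension (N := M) PΔ
  have hL₂ : ∀ c, algebraMap L M c ∈ V₂ :=
    algebraMap_mem_of_place_le PΔ fun f hf => (hiff₂ f).mpr hf
  have hk₂ : ∀ c, algebraMap k M c ∈ V₂ := fun c => by
    rw [IsScalarTower.algebraMap_apply k L M]; exact hL₂ _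
  have hK₂ : ∀ c, algebraMap K M c ∈ V₂ := fun c => by
    rw [IsScalarTower.algebraMap_apply K L M]; exact hL₂ _
  let : Algebra L V₂ := subringAlgebra V₂ hL₂
  let : Algebra k V₂ := subringAlgebra V₂ hk₂
  let : Algebra K V₂ := subringAlgebra V₂ hK₂
  have : IsScalarTower L V₂ M := IsScalarTower.of_algebraMap_eq fun _ => rfl
  have : IsScalarTower k V₂ M := IsScalarTower.of_algebraMap_eq fun _ => rfl
  have : IsScalarTower K V₂ M := IsScalarTower.of_algebraMap_eq fun _ => rfl
  have : IsScalarTower k L V₂ := IsScalarTower.of_algebraMap_eq fun c =>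
    Subtype.ext (IsScalarTower.algebraMap_apply k L M c)
  have : IsScalarTower K k V₂ := IsScalarTower.of_algebraMap_eq fun c =>
    Subtype.ext (IsScalarTower.algebraMap_apply K k M c)
  let r₂ : V₂ →ₐ[k] L := (constResidue V₂ hres₂).restrictScalars k
  have hr₂ : Function.Surjective r₂ := surjective_constResidue V₂ hres₂
  have hη₂ : X.redConst r₂ ηM = η := by
    rw [hηM', redConst_map r₂ (IsScalarTower.toAlgHom K L M) hL₂ (AlgHom.id K L)
      (fun c => (constResidue V₂ hres₂).commutes c), X.map_id]
  have hθ₂ : X.redConst r₂ θ = η := by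
    rw [hθ, redConst_map r₂ ιθ
      (fun f => (hiff₂ _).mpr ((hPΔ f).1.mpr (ValuationSubring.mem_top f)))
      (IsScalarTower.toAlgHom K F L) (fun f => ?_)]
    refine (constResidue_eq_iff V₂ hres₂ _ _).mpr ?_
    show algebraMap (ConstExt k F L) M (incl k F L f) - algebraMap L M (algebraMap F L f) ∈
      V₂.nonunits
    rw [IsScalarTower.algebraMap_apply L (ConstExt k F L) M, ← map_sub]
    refine hnon₂ _ ?_
    have h4 := (hPΔ f).2 (ValuationSubring.mem_top f)
    have h5 := (FF.residue_eq_zero_iff PΔ (a := ⟨_, mem_of_mem_ordGe_one h4⟩)).mpr h4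
    exact ValuationSubring.coe_mem_nonunits_iff.mpr ((IsLocalRing.residue_eq_zero_iff _).mp h5)
  have h2 := sub_mem (mapDomain_red_principal r₂ hr₂ hΨmem)
    (D.mapDomain_red_fourTerm_sub_mem r₂ hr₂ x θ ηM)
  rw [sub_sub_cancel, hθ₂, hη₂] at h2
  have h3 := neg_mem h2
  rw [fourTerm, sub_self] at h3
  simp only [pullAt, map_zero, add_zero, map_neg] at h3
  convert h3 using 1
  rw [two_nsmul, sub_eq_add_neg (X.extPt k L x)]
  abel

end CartierData

end AbData

end Fermat.Agent.AbVar
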