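import Fermat.Agent.AbVar.Height.Spec
import Fermat.Agent.AbVar.Height.Nonspecial
import Fermat.Agent.FF.Approx

/-!
# Four term combinations of pullbacks, and places with the values of a place of `F`
-/

set_option autoImplicit false

noncomputable section

universe u

open CategoryTheory CategoryTheory.Limits AlgebraicGeometry NeronModelInfra GoodReductionJacobian
open AlgebraicCurve IsLocalRing
open scoped Classical

namespace Fermat.Agent.AbVar

/-- A valuation subring containing the image of a ring is an algebra over it. -/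
@[reducible]
def subringAlgebra {R Ω : Type u} [CommRing R] [Field Ω] [Algebra R Ω] (V : ValuationSubring Ω)
    (h : ∀ c, algebraMap R Ω c ∈ V) : Algebra R V :=
  ((algebraMap R Ω).codRestrict V.toSubring h).toAlgebra

theorem mapDomain_pos {α β : Type*} (f : α → β) {D : α →₀ ℤ} (hD : 0 ≤ D) {a : α} (ha : D a ≠ 0) :
    0 < Finsupp.mapDomain f D (f a) := by
  rw [Finsupp.mapDomain_apply_eq_sum]
  refine Finset.sum_pos' (fun b _ => Finsupp.le_def.mp hD b)
    ⟨a, Finset.mem_filter.mpr ⟨Finsupp.mem_support_iff.mpr ha, rfl⟩, ?_⟩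
  exact lt_of_le_of_ne (Finsupp.le_def.mp hD a) (Ne.symm ha)

theorem mapDomain_nonneg' {α β : Type*} (f : α → β) {D : α →₀ ℤ} (hD : 0 ≤ D) :
    0 ≤ Finsupp.mapDomain f D := Finsupp.le_def.mpr fun b => by
  rw [Finsupp.zero_apply, Finsupp.mapDomain, Finsupp.sum_apply]
  refine Finset.sum_nonneg fun a _ => ?_
  simp only [Finsupp.single_apply]
  split_ifs
  · exact Finsupp.le_def.mp hD a
  · exact le_rfl

variable {k F Ω : Type u} [Field k] [IsAlgClosed k] [Field F] [Algebra k F]
  [FF.IsFunctionField k F] [Field Ω] [IsAlgClosed Ω] [Algebra k Ω]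

omit [IsAlgClosed Ω] in
theorem exists_of_baseDiv_ne_zero {G : Divisor k F} {P : Place Ω (ConstExt k F Ω)}
    (h : (baseDiv G : Divisor Ω (ConstExt k F Ω)) P ≠ 0) :
    ∃ q ∈ G.support, P = liftPlace q := by
  by_contra! hcon
  by_cases hQ : ∃ q : Place k F, P = liftPlace q
  · obtain ⟨q, rfl⟩ := hQ
    rw [baseDiv_liftPlace] at h
    exact hcon q (Finsupp.mem_support_iff.mpr h) rfl
  · exact h (baseDiv_apply_of_forall_ne G fun q hq => hQ ⟨q, hq⟩)

/-- An effective divisor equivalent to a divisor moving in no pencil is that divisor. -/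
theorem eq_baseDiv_of_sub_mem {G : Divisor k F} (hG : 0 ≤ G) (hell : FF.ell k G = 1)
    {E : Divisor Ω (ConstExt k F Ω)} (hE : 0 ≤ E)
    (hD : E - baseDiv G ∈ Divisor.principal (K := Ω) (F := ConstExt k F Ω)) : E = baseDiv G := by
  obtain ⟨f, hf, hDf⟩ := Divisor.mem_principal.mp hD
  have h : E = baseDiv G + FF.div Ω f := by
    ext v
    have := hDf v
    rw [Finsupp.sub_apply] at this
    rw [Finsupp.add_apply, FF.div_apply]
    omega
  rw [h] at hE ⊢
  exact eq_of_ell_eq_one (baseDiv_nonneg hG) (by rw [ell_baseDiv]; exact hell) hf hE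

/-- A place at which the functions regular on `S` take the values they have at `q ∈ S` lies
over `q`. -/
theorem eq_liftPlace_of_values (P : Place Ω (ConstExt k F Ω)) (S : Finset (Place k F))
    {q : Place k F} (hq : q ∈ S)
    (h : ∀ u : F, (∀ v ∈ S, u ∈ v.toValuationSubring) →
      incl k F Ω u ∈ P.toValuationSubring ∧
        valAt P (incl k F Ω u) = algebraMap k Ω (valAt q u)) : P = liftPlace q := by
  have key : ∀ f : F, f ∈ q.toValuationSubring →
      incl k F Ω f ∈ P.toValuationSubring ∧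
        valAt P (incl k F Ω f) = algebraMap k Ω (valAt q f) := by
    intro f hf
    rcases eq_or_ne f 0 with rfl | hf0
    · exact h 0 fun v _ => zero_mem _
    obtain ⟨d, hd⟩ := FF.exists_approx S (fun v => if v = q then 1 else 0)
      fun v => if v = q then (1 : ℤ) else max 0 (-v.ord f)
    have hdq : d - 1 ∈ FF.ordGe q 1 := by simpa using hd q hq
    have hd1 : valAt q d = 1 := valAt_eq_of_sub_mem (by rwa [map_one])
    have hdq' : d ∈ q.toValuationSubring :=
      mem_of_sub_mem (P := q) (e := d) (c := (1 : k)) (by rwa [map_one])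
    have hdS : ∀ v ∈ S, d ∈ v.toValuationSubring ∧ f * d ∈ v.toValuationSubring := by
      intro v hv
      rcases eq_or_ne v q with rfl | hne
      · exact ⟨hdq', mul_mem hf hdq'⟩
      · have h1 : d ∈ FF.ordGe v (max 0 (-v.ord f)) := by simpa [hne] using hd v hv
        refine ⟨(FF.mem_ordGe_zero v).mp (FF.ordGe_anti v (le_max_left _ _) h1), ?_⟩
        refine (FF.mem_ordGe_zero v).mp ?_
        rcases eq_or_ne d 0 with rfl | hd0
        · rw [mul_zero]; exact zero_mem _
        refine FF.mem_ordGe_of_le v ?_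
        have h2 := FF.le_ord_of_mem_ordGe v hd0 h1
        rw [v.ord_mul hf0 hd0]
        omega
    obtain ⟨hdP, hdv⟩ := h d fun v hv => (hdS v hv).1
    obtain ⟨hnP, hnv⟩ := h (f * d) fun v hv => (hdS v hv).2
    rw [hd1, map_one] at hdv
    obtain ⟨hdi, hdiv⟩ := valAt_inv P hdP (by rw [hdv]; exact one_ne_zero)
    have hd0 : incl k F Ω d ≠ 0 := fun h0 => by
      rw [h0, valAt_eq_zero_of_mem (zero_mem _)] at hdv
      exact zero_ne_one hdv
    have hfe : incl k F Ω f = incl k F Ω (f * d) * (incl k F Ω d)⁻¹ := by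
      rw [map_mul, mul_inv_cancel_right₀ hd0]
    refine ⟨hfe ▸ mul_mem hnP hdi, ?_⟩
    rw [hfe, valAt_mul P hnP hdi, hdiv, hdv, inv_one, mul_one, hnv,
      valAt_mul q hf hdq', hd1, mul_one]
  refine liftPlace_unique q fun f => ⟨fun hf => (key f hf).1, fun hf => ?_⟩
  by_contra hfq
  have hf0 : f ≠ 0 := fun h0 => hfq (h0 ▸ zero_mem _)
  have hlt : q.ord f < 0 := by
    by_contra hge
    exact hfq ((FF.mem_iff q).mpr (Or.inr (by omega)))
  have hi1 : f⁻¹ ∈ FF.ordGe q 1 := FF.mem_ordGe_of_le q (by rw [q.ord_inv]; omega)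
  obtain ⟨hP, hv⟩ := key f⁻¹ (mem_of_mem_ordGe_one hi1)
  rw [valAt_eq_zero_of_mem hi1, map_zero] at hv
  have h1 := valAt_mul P hf hP
  rw [hv, mul_zero, ← map_mul, mul_inv_cancel₀ hf0, map_one,
    ← map_one (algebraMap Ω (ConstExt k F Ω)), valAt_algebraMap] at h1
  exact one_ne_zero h1

namespace AbData

variable {K : Type u} [Field K] [IsAlgClosed K] {X : AbData K}
variable [Algebra K k] [Algebra K F] [IsScalarTower K k F] [Algebra K Ω] [IsScalarTower K k Ω]

section Red

variable {V : ValuationSubring Ω} [Algebra k V] [IsScalarTower k V Ω] [Algebra K V]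
  [IsScalarTower K k V] [IsScalarTower K V Ω] {κ : Type u} [Field κ] [IsAlgClosed κ] [Algebra k κ]
  [Algebra K κ] [IsScalarTower K k κ]

omit [IsAlgClosed k] [IsAlgClosed Ω] [Algebra k Ω]
  [IsAlgClosed K] [IsScalarTower K k Ω] [IsScalarTower k (↥V) Ω] [IsAlgClosed κ] in
theorem redConst_map (r : V →ₐ[k] κ) {R : Type u} [CommRing R] [Algebra K R] (φ : R →ₐ[K] Ω)
    (hφ : ∀ w, φ w ∈ V) (χ : R →ₐ[K] κ) (h : ∀ w, r ⟨φ w, hφ w⟩ = χ w) (b : X.Pt R) :
    X.redConst r (X.map φ b) = X.map χ b := by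
  let ψ : R →ₐ[K] V :=
    { toFun := fun w => ⟨φ w, hφ w⟩
      map_one' := Subtype.ext (map_one φ)
      map_mul' := fun a b => Subtype.ext (map_mul φ a b)
      map_zero' := Subtype.ext (map_zero φ)
      map_add' := fun a b => Subtype.ext (map_add φ a b)
      commutes' := fun c => Subtype.ext (by
        show φ (algebraMap K R c) = (algebraMap K V c : Ω)
        rw [φ.commutes, IsScalarTower.algebraMap_apply K V Ω]
        rfl) }
  have e : φ = (IsScalarTower.toAlgHom K V Ω).comp ψ := AlgHom.ext fun w => rfl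
  rw [redConst, e, X.red_map]
  exact X.map_congr (fun w => h w) b

end Red

namespace CartierData

variable (D : X.CartierData)

variable (Ω) in
/-- The pullback by `x + a`. -/
def pullAt (x : X.Pt F) (a : X.Pt Ω) : Divisor Ω (ConstExt k F Ω) :=
  D.pull Ω (X.extPt k Ω x + X.constPt k F a)

/-- The four term combination of pullbacks. -/
def fourTerm (x : X.Pt F) (b₁ b₂ : X.Pt Ω) : Divisor Ω (ConstExt k F Ω) :=
  D.pullAt Ω x (b₁ - b₂) - D.pullAt Ω x b₁ - D.pullAt Ω x (-b₂) + D.pullAt Ω x 0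

theorem fourTerm_zero_right (x : X.Pt F) (b : X.Pt Ω) : D.fourTerm (k := k) x b 0 = 0 := by
  rw [fourTerm, sub_zero, neg_zero]; abel

theorem fourTerm_zero_left (x : X.Pt F) (b : X.Pt Ω) : D.fourTerm (k := k) x 0 b = 0 := by
  rw [fourTerm, zero_sub]; abel

variable {V : ValuationSubring Ω} [Algebra k V] [IsScalarTower k V Ω] [Algebra K V]
  [IsScalarTower K k V] [IsScalarTower K V Ω] {κ : Type u} [Field κ] [IsAlgClosed κ] [Algebra k κ]
  [Algebra K κ] [IsScalarTower K k κ]

theorem mapDomain_red_fourTerm_sub_mem (r : V →ₐ[k] κ) (hr : Function.Surjective r) (x : X.Pt F)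
    (b₁ b₂ : X.Pt Ω) :
    Finsupp.mapDomain (AbVar.red r hr) (D.fourTerm x b₁ b₂) -
        D.fourTerm x (X.redConst r b₁) (X.redConst r b₂) ∈
      Divisor.principal (K := κ) (F := ConstExt k F κ) := by
  have h : ∀ a : X.Pt Ω, Finsupp.mapDomain.addMonoidHom (AbVar.red r hr) (D.pullAt Ω x a) -
      D.pullAt κ x (X.redConst r a) ∈ Divisor.principal (K := κ) (F := ConstExt k F κ) := fun a =>
    D.mapDomain_red_pull_sub_mem r hr x a
  show Finsupp.mapDomain.addMonoidHom (AbVar.red r hr) (D.fourTerm x b₁ b₂) - _ ∈ _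
  have h' := add_mem (sub_mem (sub_mem (h (b₁ - b₂)) (h b₁)) (h (-b₂))) (h 0)
  rw [map_sub (X.redConst r), map_neg (X.redConst r), map_zero (X.redConst r)] at h'
  rw [fourTerm, fourTerm, map_add, map_sub, map_sub]
  convert h' using 1
  abel

end CartierData

end AbData

end Fermat.Agent.AbVar
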